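import Mathlib

set_option autoImplicit false
set_option linter.all false

/-! The Weil representation of `SL₂` over a finite field, attached to the quadratic extension. -/

namespace Fermat.Agent.H29W

open QuadraticAlgebra Finset

noncomputable section

instance instFintypeQA {R : Type*} [Fintype R] (a b : R) : Fintype (QuadraticAlgebra R a b) :=
  Fintype.ofEquiv _ (QuadraticAlgebra.equivProd a b).symm

instance instDecQA {R : Type*} [DecidableEq R] (a b : R) : DecidableEq (QuadraticAlgebra R a b) :=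
  (QuadraticAlgebra.equivProd a b).decidableEq

section ring

variable {k : Type*} [CommRing k] {d : k}

theorem norm_add' (x y : QuadraticAlgebra k d 0) :
    (x + y).norm = x.norm + y.norm + trace (x * star y) := by
  simp only [norm_def, trace_def, re_add, im_add, re_mul, im_mul, re_star, im_star]
  ring

theorem norm_smul' (c : k) (x : QuadraticAlgebra k d 0) : (c • x).norm = c ^ 2 * x.norm := by
  simp only [norm_def, re_smul, im_smul, smul_eq_mul]
  ring

theorem trace_mul_star (x y : QuadraticAlgebra k d 0) :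
    trace (x * star y) = 2 * (x.re * y.re) - 2 * d * (x.im * y.im) := by
  simp only [trace_def, re_mul, im_mul, re_star, im_star]
  ring

end ring

section

variable {k : Type*} [Field k] [Fintype k] [DecidableEq k] {d : k}

theorem two_ne_of_nonsq (hd : ∀ r : k, r ^ 2 ≠ d) : (2 : k) ≠ 0 := by
  intro h2
  haveI : CharP k 2 := by
    have := CharTwo.of_one_ne_zero_of_two_eq_zero (R := k) one_ne_zero h2
    exact this
  haveI : ExpChar k 2 := ExpChar.prime Nat.prime_two
  haveI : PerfectRing k 2 := PerfectRing.ofSurjective k 2 (by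
    exact Finite.surjective_of_injective (frobenius_inj k 2))
  obtain ⟨r, hr⟩ := surjective_frobenius k 2 d
  exact hd r hr

theorem d_ne (hd : ∀ r : k, r ^ 2 ≠ d) : d ≠ 0 := by
  intro h; exact hd 0 (by rw [h]; ring)

theorem card_odd (hd : ∀ r : k, r ^ 2 ≠ d) : Fintype.card k % 2 = 1 := by
  have h2 := two_ne_of_nonsq hd
  by_contra h
  have h0 : Fintype.card k % 2 = 0 := by omega
  apply h2
  obtain ⟨p, hp⟩ := CharP.exists k
  have h3 : (Fintype.card k : k) = 0 := FiniteField.cast_card_eq_zero k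
  obtain ⟨n, hpp, hn⟩ := FiniteField.card k p
  rw [hn] at h0
  have h4 : 2 ∣ p ^ (n : ℕ) := Nat.dvd_of_mod_eq_zero h0
  have h5 : 2 ∣ p := Nat.prime_two.dvd_of_dvd_pow h4
  have h6 : p = 2 := ((Nat.prime_dvd_prime_iff_eq Nat.prime_two hpp).mp h5).symm
  have h7 := (CharP.cast_eq_zero_iff k p 2).mpr (by rw [h6])
  exact_mod_cast h7

theorem norm_surj (hd : ∀ r : k, r ^ 2 ≠ d) (t : k) :
    ∃ x : QuadraticAlgebra k d 0, x.norm = t := by
  classical
  have hdd := d_ne hd
  obtain ⟨a, b, hab⟩ := FiniteField.exists_root_sum_quadratic (R := k)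
    (f := Polynomial.X ^ 2 - Polynomial.C t) (g := Polynomial.C (-d) * Polynomial.X ^ 2)
    (by
      rw [Polynomial.degree_X_pow_sub_C (by norm_num)]; rfl)
    (by
      rw [Polynomial.degree_C_mul_X_pow 2 (neg_ne_zero.mpr hdd)]; rfl)
    (card_odd hd)
  refine ⟨⟨a, b⟩, ?_⟩
  simp at hab
  simp only [norm_def]
  linear_combination hab

theorem sum_QA {M : Type*} [AddCommMonoid M] (F : QuadraticAlgebra k d 0 → M) :
    ∑ y, F y = ∑ u : k, ∑ v : k, F ⟨u, v⟩ := by
  rw [← Fintype.sum_prod_type', ← (QuadraticAlgebra.equivProd d (0 : k)).symm.sum_comp]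
  rfl

theorem card_QA : Fintype.card (QuadraticAlgebra k d 0) = Fintype.card k ^ 2 := by
  rw [Fintype.card_congr (QuadraticAlgebra.equivProd d 0), Fintype.card_prod, sq]

variable [Hd : Fact (∀ r : k, r ^ 2 ≠ d + 0 * r)]

theorem hd_of_fact : ∀ r : k, r ^ 2 ≠ d := by
  intro r h; exact Hd.out r (by rw [h]; ring)

/-- fibres of the norm -/
def fib (d t : k) : Finset (QuadraticAlgebra k d 0) := Finset.univ.filter fun y => y.norm = t

@[simp] theorem mem_fib {t : k} {y : QuadraticAlgebra k d 0} : y ∈ fib d t ↔ y.norm = t := by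
  simp [fib]

theorem norm_inv' (z : QuadraticAlgebra k d 0) : z⁻¹.norm = z.norm⁻¹ := by
  by_cases hz : z = 0
  · rw [hz, inv_zero, QuadraticAlgebra.norm_zero, inv_zero]
  · have h : z⁻¹.norm * z.norm = 1 := by rw [← map_mul, inv_mul_cancel₀ hz, map_one]
    exact eq_inv_of_mul_eq_one_left h

theorem card_fib_eq {s t : k} (hs : s ≠ 0) (ht : t ≠ 0) : (fib d s).card = (fib d t).card := by
  obtain ⟨z, hz⟩ := norm_surj (hd_of_fact (d := d)) (t / s)
  have hz0 : z ≠ 0 := by
    rintro rfl
    rw [QuadraticAlgebra.norm_zero] at hz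
    exact (div_ne_zero ht hs) hz.symm
  refine Finset.card_bij' (fun y _ => z * y) (fun y _ => z⁻¹ * y) ?_ ?_ ?_ ?_
  · intro y hy
    rw [mem_fib] at hy ⊢
    rw [map_mul, hy, hz, div_mul_cancel₀ _ hs]
  · intro y hy
    rw [mem_fib] at hy ⊢
    rw [map_mul, norm_inv', hy, hz, inv_div, div_mul_cancel₀ _ ht]
  · intro y _; rw [← mul_assoc, inv_mul_cancel₀ hz0, one_mul]
  · intro y _; rw [← mul_assoc, mul_inv_cancel₀ hz0, one_mul]

theorem fib_zero : fib d (0 : k) = {0} := by
  ext y
  rw [mem_fib, norm_eq_zero_iff_eq_zero, Finset.mem_singleton]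

theorem card_fib {t : k} (ht : t ≠ 0) : (fib d t).card = Fintype.card k + 1 := by
  have h1 : ∑ s : k, (fib d s).card = Fintype.card k ^ 2 := by
    rw [← card_QA (d := d), ← Finset.card_univ, Finset.card_eq_sum_card_fiberwise
      (f := fun y : QuadraticAlgebra k d 0 => y.norm) (t := Finset.univ) (fun _ _ => by simp)]
    rfl
  rw [← Finset.add_sum_erase _ _ (Finset.mem_univ (0 : k)), fib_zero, Finset.card_singleton,
    Finset.sum_congr rfl (fun s hs => card_fib_eq (d := d) (Finset.ne_of_mem_erase hs) ht),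
    Finset.sum_const, Finset.card_erase_of_mem (Finset.mem_univ _), Finset.card_univ,
    smul_eq_mul] at h1
  have h2 : 1 < Fintype.card k := Fintype.one_lt_card
  obtain ⟨m, hm⟩ : ∃ m, Fintype.card k = m + 2 := ⟨Fintype.card k - 2, by omega⟩
  rw [hm] at h1 ⊢
  simp only [Nat.add_sub_cancel, show m + 2 - 1 = m + 1 by omega] at h1
  have h3 : (m + 1) * (fib d t).card = (m + 1) * (m + 3) := by nlinarith
  have h4 := Nat.eq_of_mul_eq_mul_left (Nat.succ_pos m) h3
  omega

variable {R : Type*} [CommRing R] (ψ : AddChar k R)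

theorem sum_psi_trace (hψ : ∀ a ≠ 0, ∑ x, ψ (a * x) = 0) {w : QuadraticAlgebra k d 0}
    (hw : w ≠ 0) : ∑ y : QuadraticAlgebra k d 0, ψ (trace (w * star y)) = 0 := by
  have h2 := two_ne_of_nonsq (hd_of_fact (d := d))
  have hdd := d_ne (hd_of_fact (d := d))
  rw [sum_QA]
  have h1 : ∀ u v : k, ψ (trace (w * star (⟨u, v⟩ : QuadraticAlgebra k d 0))) =
      ψ (2 * w.re * u) * ψ (-(2 * d * w.im) * v) := by
    intro u v
    rw [trace_mul_star, ← AddChar.map_add_eq_mul]
    congr 1; ring
  simp_rw [h1, ← Finset.mul_sum, ← Finset.sum_mul]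
  by_cases hr : w.re = 0
  · have hi : w.im ≠ 0 := by
      intro hi; exact hw (by ext <;> simp [hr, hi])
    rw [hψ _ (neg_ne_zero.mpr (mul_ne_zero (mul_ne_zero h2 hdd) hi)), mul_zero]
  · rw [hψ _ (mul_ne_zero h2 hr), zero_mul]

theorem sum_psi_norm (hψ : ∀ a ≠ 0, ∑ x, ψ (a * x) = 0) {α : k} (hα : α ≠ 0) :
    ∑ y : QuadraticAlgebra k d 0, ψ (α * y.norm) = -(Fintype.card k : R) := by
  rw [← Finset.sum_fiberwise_of_maps_to (s := Finset.univ) (t := Finset.univ)
    (g := fun y : QuadraticAlgebra k d 0 => y.norm) (fun _ _ => Finset.mem_univ _)]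
  have h1 : ∀ t : k, ∑ y ∈ Finset.univ.filter (fun y : QuadraticAlgebra k d 0 => y.norm = t),
      ψ (α * y.norm) = ((fib d t).card : R) * ψ (α * t) := by
    intro t
    rw [Finset.sum_congr rfl (g := fun _ => ψ (α * t)), Finset.sum_const, nsmul_eq_mul]
    · rfl
    · intro y hy
      rw [(Finset.mem_filter.mp hy).2]
  simp_rw [h1]
  have h3 := hψ α hα
  rw [← Finset.add_sum_erase _ _ (Finset.mem_univ (0 : k)), mul_zero, AddChar.map_zero_eq_one] at h3
  rw [← Finset.add_sum_erase _ _ (Finset.mem_univ (0 : k)), fib_zero, Finset.card_singleton,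
    mul_zero, AddChar.map_zero_eq_one,
    Finset.sum_congr rfl (g := fun t => ((Fintype.card k + 1 : ℕ) : R) * ψ (α * t))
      (fun s hs => by rw [card_fib (d := d) (Finset.ne_of_mem_erase hs)]), ← Finset.mul_sum]
  have h4 : ∑ x ∈ Finset.univ.erase (0 : k), ψ (α * x) = -1 := by linear_combination h3
  rw [h4]
  push_cast; ring

theorem sum_psi_quad (hψ : ∀ a ≠ 0, ∑ x, ψ (a * x) = 0) {α : k} (hα : α ≠ 0)
    (w : QuadraticAlgebra k d 0) :
    ∑ y : QuadraticAlgebra k d 0, ψ (α * y.norm - trace (w * star y)) =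
      -(Fintype.card k : R) * ψ (-(w.norm / α)) := by
  rw [← sum_psi_norm (d := d) ψ hψ hα, Finset.sum_mul,
    ← Equiv.sum_comp (Equiv.addRight (α⁻¹ • w))]
  refine Finset.sum_congr rfl fun y _ => ?_
  rw [← AddChar.map_add_eq_mul, Equiv.coe_addRight]
  congr 1
  rw [norm_add', norm_smul']
  simp only [norm_def, trace_mul_star, re_add, im_add, re_smul, im_smul, smul_eq_mul]
  field_simp
  ring

end

end

end Fermat.Agent.H29W
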