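import Mathlib
import Fermat.Agent.H29W.Local

set_option autoImplicit false
set_option linter.all false

/-! The kernels of the Weil representation and their composition. -/

namespace Fermat.Agent.H29W

open QuadraticAlgebra Finset

noncomputable section

variable {k : Type*} [Field k] [Fintype k] [DecidableEq k] {d : k}
  [Hd : Fact (∀ r : k, r ^ 2 ≠ d + 0 * r)] {R : Type*} [CommRing R] (ψ : AddChar k R) (qi : R)

/-- the kernel of `(a b; c e)` -/
def Kf (a b c e : k) (β x y : QuadraticAlgebra k d 0) : R :=
  if c = 0 then (if y = e⁻¹ • (β * x) then ψ (b / e * x.norm) else 0)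
  else -qi * ψ (c⁻¹ * (a * x.norm - trace (β * x * star y) + e * y.norm))

variable {ψ qi}

theorem Kf_zero (a b e : k) (β x y : QuadraticAlgebra k d 0) :
    Kf ψ qi a b 0 e β x y = if y = e⁻¹ • (β * x) then ψ (b / e * x.norm) else 0 := by
  rw [Kf, if_pos rfl]

theorem Kf_ne (a b : k) {c : k} (hc : c ≠ 0) (e : k) (β x y : QuadraticAlgebra k d 0) :
    Kf ψ qi a b c e β x y =
      -qi * ψ (c⁻¹ * (a * x.norm - trace (β * x * star y) + e * y.norm)) := by
  rw [Kf, if_neg hc]

theorem smul_inv_mul_eq (e : k) (he : e ≠ 0) {β : QuadraticAlgebra k d 0} (hβ : β ≠ 0)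
    (y z : QuadraticAlgebra k d 0) : z = e⁻¹ • (β * y) ↔ y = e • (β⁻¹ * z) := by
  constructor
  · rintro rfl
    rw [mul_smul_comm, smul_smul, mul_inv_cancel₀ he, one_smul, ← mul_assoc, inv_mul_cancel₀ hβ,
      one_mul]
  · rintro rfl
    rw [mul_smul_comm, smul_smul, inv_mul_cancel₀ he, one_smul, ← mul_assoc, mul_inv_cancel₀ hβ,
      one_mul]

theorem Kf_mul_zero_left {a b e a' b' c' e' : k} {β β' : QuadraticAlgebra k d 0}
    (h : β.norm = a * e) (h0 : a * e ≠ 0) (h' : β'.norm = a' * e' - b' * c')
    (h0' : a' * e' - b' * c' ≠ 0) (x z : QuadraticAlgebra k d 0) :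
    ∑ y, Kf ψ qi a b 0 e β x y * Kf ψ qi a' b' c' e' β' y z =
      Kf ψ qi (a * a' + b * c') (a * b' + b * e') (0 * a' + e * c') (0 * b' + e * e') (β * β')
        x z := by
  have ha := left_ne_zero_of_mul h0
  have he := right_ne_zero_of_mul h0
  simp_rw [Kf_zero, ite_mul, zero_mul]
  rw [Finset.sum_ite_eq' Finset.univ, if_pos (Finset.mem_univ _)]
  have hN : (e⁻¹ • (β * x)).norm = a / e * x.norm := by
    rw [norm_smul', map_mul, h]; field_simp
  by_cases hc' : c' = 0
  · subst hc'
    rw [mul_zero, zero_add, zero_add, Kf_zero]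
    have he' : e' ≠ 0 := by
      rintro rfl; exact h0' (by ring)
    have e1 : e'⁻¹ • (β' * e⁻¹ • (β * x)) = (e * e')⁻¹ • (β * β' * x) := by
      rw [mul_smul_comm, smul_smul, mul_inv, mul_comm e⁻¹]
      congr 1; ring
    rw [e1, mul_ite, mul_zero, hN, ← AddChar.map_add_eq_mul, mul_zero, add_zero, Kf_zero]
    congr 2
    field_simp
    ring
  · have hec : 0 + e * c' ≠ 0 := by rw [zero_add]; exact mul_ne_zero he hc'
    rw [Kf_ne _ _ hc', Kf_ne _ _ hec, hN]
    have e1 : trace (β' * (e⁻¹ • (β * x)) * star z) = e⁻¹ * trace (β * β' * x * star z) := by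
      rw [mul_smul_comm, smul_mul_assoc, map_smul, smul_eq_mul]
      congr 2; ring
    rw [e1, mul_left_comm, ← AddChar.map_add_eq_mul]
    congr 2
    rw [zero_add, zero_add]
    field_simp
    ring

theorem Kf_mul_zero_right {a b c e a' b' e' : k} {β β' : QuadraticAlgebra k d 0} (hc : c ≠ 0)
    (h : β.norm = a * e - b * c) (h0 : a * e - b * c ≠ 0) (h' : β'.norm = a' * e')
    (h0' : a' * e' ≠ 0) (x z : QuadraticAlgebra k d 0) :
    ∑ y, Kf ψ qi a b c e β x y * Kf ψ qi a' b' 0 e' β' y z =
      Kf ψ qi (a * a' + b * 0) (a * b' + b * e') (c * a' + e * 0) (c * b' + e * e') (β * β')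
        x z := by
  have ha' := left_ne_zero_of_mul h0'
  have he' := right_ne_zero_of_mul h0'
  have hβ' : β' ≠ 0 := by
    rintro rfl; rw [QuadraticAlgebra.norm_zero] at h'; exact h0' h'.symm
  simp_rw [Kf_zero, smul_inv_mul_eq e' he' hβ', mul_ite, mul_zero]
  rw [Finset.sum_ite_eq' Finset.univ, if_pos (Finset.mem_univ _)]
  have hN : (e' • (β'⁻¹ * z)).norm = e' / a' * z.norm := by
    rw [norm_smul', map_mul, norm_inv', h']; field_simp
  have hst : star (β'⁻¹) = (a' * e')⁻¹ • β' := by
    have h1 : β'⁻¹ = (a' * e')⁻¹ • star β' := by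
      rw [← h']; rfl
    rw [h1]
    ext <;> simp
  have e1 : trace (β * x * star (e' • (β'⁻¹ * z))) = a'⁻¹ * trace (β * β' * x * star z) := by
    have : β * x * star (e' • (β'⁻¹ * z)) = a'⁻¹ • (β * β' * x * star z) := by
      have h1 : star (e' • (β'⁻¹ * z)) = e' • (star β'⁻¹ * star z) := by
        ext <;> simp <;> ring
      rw [h1, hst, smul_mul_assoc, smul_smul]
      have h2 : e' * (a' * e')⁻¹ = a'⁻¹ := by field_simp
      rw [h2, mul_smul_comm]
      congr 1; ring
    rw [this, map_smul, smul_eq_mul]
  have hca : c * a' + 0 ≠ 0 := by rw [add_zero]; exact mul_ne_zero hc ha'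
  rw [Kf_ne _ _ hc, Kf_ne _ _ hca, hN, e1, mul_assoc, ← AddChar.map_add_eq_mul]
  congr 2
  rw [add_zero, add_zero]
  field_simp
  ring

theorem Kf_mul_ne (hq : (Fintype.card k : R) * qi = 1) (hψ : ∀ a ≠ 0, ∑ x, ψ (a * x) = 0)
    {a b c e a' b' c' e' : k} {β β' : QuadraticAlgebra k d 0} (hc : c ≠ 0) (hc' : c' ≠ 0)
    (h : β.norm = a * e - b * c) (h0 : a * e - b * c ≠ 0) (h' : β'.norm = a' * e' - b' * c')
    (h0' : a' * e' - b' * c' ≠ 0) (x z : QuadraticAlgebra k d 0) :
    ∑ y, Kf ψ qi a b c e β x y * Kf ψ qi a' b' c' e' β' y z =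
      Kf ψ qi (a * a' + b * c') (a * b' + b * e') (c * a' + e * c') (c * b' + e * e') (β * β')
        x z := by
  have hβ : β ≠ 0 := by
    rintro rfl; rw [QuadraticAlgebra.norm_zero] at h; exact h0 h.symm
  have hβ' : β' ≠ 0 := by
    rintro rfl; rw [QuadraticAlgebra.norm_zero] at h'; exact h0' h'.symm
  simp_rw [Kf_ne _ _ hc, Kf_ne _ _ hc']
  set w : QuadraticAlgebra k d 0 := c⁻¹ • (β * x) + c'⁻¹ • (star β' * z) with hw
  have key : ∀ y : QuadraticAlgebra k d 0,
      -qi * ψ (c⁻¹ * (a * x.norm - trace (β * x * star y) + e * y.norm)) *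
        (-qi * ψ (c'⁻¹ * (a' * y.norm - trace (β' * y * star z) + e' * z.norm))) =
      qi * qi * ψ (a / c * x.norm + e' / c' * z.norm) *
        ψ ((e / c + a' / c') * y.norm - trace (w * star y)) := by
    intro y
    have h1 : trace (w * star y) = c⁻¹ * trace (β * x * star y) + c'⁻¹ * trace (β' * y * star z) := by
      rw [hw, add_mul, smul_mul_assoc, smul_mul_assoc, map_add, map_smul, map_smul, smul_eq_mul,
        smul_eq_mul]
      congr 2
      rw [← trace_star (β' * y * star z)]
      congr 1
      rw [star_mul, star_mul, star_star]; ring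
    have h2 : ∀ s t : R, -qi * s * (-qi * t) = qi * qi * (s * t) := by intro s t; ring
    rw [h2, mul_assoc (qi * qi), ← AddChar.map_add_eq_mul, ← AddChar.map_add_eq_mul, h1]
    congr 2
    field_simp
    ring
  simp_rw [key, ← Finset.mul_sum]
  have hNw : w.norm = (a * e - b * c) / c ^ 2 * x.norm + (a' * e' - b' * c') / c' ^ 2 * z.norm +
      (c * c')⁻¹ * trace (β * β' * x * star z) := by
    rw [hw, norm_add', norm_smul', norm_smul', map_mul, map_mul, QuadraticAlgebra.norm_star, h, h']
    have h1 : star (c'⁻¹ • (star β' * z)) = c'⁻¹ • (β' * star z) := by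
      ext <;> simp <;> ring
    rw [h1, smul_mul_smul_comm, map_smul, smul_eq_mul]
    have h2 : β * x * (β' * star z) = β * β' * x * star z := by ring
    rw [h2]
    field_simp
  by_cases hcc : c * a' + e * c' = 0
  · have hα : e / c + a' / c' = 0 := by
      field_simp
      linear_combination hcc
    have he2 : c * b' + e * e' = -(c * (a' * e' - b' * c')) / c' := by
      field_simp
      linear_combination e' * hcc
    have he2' : c * b' + e * e' ≠ 0 := by
      rw [he2]
      exact div_ne_zero (neg_ne_zero.mpr (mul_ne_zero hc h0')) hc'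
    rw [hcc, Kf_zero]
    have hw0 : w = 0 ↔ z = (c * b' + e * e')⁻¹ • (β * β' * x) := by
      have h1 : β' * w = c⁻¹ • (β * β' * x) + ((a' * e' - b' * c') / c') • z := by
        rw [hw, mul_add, mul_smul_comm, mul_smul_comm, ← mul_assoc β' (star β') z,
          ← algebraMap_norm_eq_mul_star, h', ← Algebra.smul_def, smul_smul]
        congr 1
        · congr 1; ring
        · congr 1; ring
      constructor
      · intro h2
        rw [h2, mul_zero] at h1
        have h3 : ((a' * e' - b' * c') / c') • z = -(c⁻¹ • (β * β' * x)) :=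
          eq_neg_of_add_eq_zero_right h1.symm
        have h4 : z = (c' / (a' * e' - b' * c')) • (((a' * e' - b' * c') / c') • z) := by
          rw [smul_smul]
          have : c' / (a' * e' - b' * c') * ((a' * e' - b' * c') / c') = 1 := by
            clear * - h0' hc'
            generalize a' * e' - b' * c' = δ' at h0'
            field_simp
          rw [this, one_smul]
        rw [h4, h3, he2, ← smul_neg, smul_smul, ← neg_smul_neg, neg_neg]
        congr 1
        field_simp
      · intro h2
        have h3 : β' * w = 0 := by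
          rw [h1, h2, smul_smul, he2, ← add_smul]
          have : c⁻¹ + (a' * e' - b' * c') / c' * (-(c * (a' * e' - b' * c')) / c')⁻¹ = 0 := by
            generalize a' * e' - b' * c' = δ' at h0'
            field_simp
            ring
          rw [this, zero_smul]
        exact (mul_eq_zero.mp h3).resolve_left hβ'
    by_cases hz : z = (c * b' + e * e')⁻¹ • (β * β' * x)
    · rw [if_pos hz]
      have hw1 := hw0.mpr hz
      simp_rw [hw1, hα, zero_mul, map_zero, sub_zero, AddChar.map_zero_eq_one]
      rw [Finset.sum_const, Finset.card_univ, card_QA, nsmul_eq_mul, mul_one]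
      have h5 : z.norm = (a * e - b * c) * (a' * e' - b' * c') / (c * b' + e * e') ^ 2 * x.norm := by
        rw [hz, norm_smul', map_mul, map_mul, h, h']
        field_simp
      have h6 : ∀ s : R, qi * qi * s * ((Fintype.card k ^ 2 : ℕ) : R) = s := by
        intro s
        push_cast
        linear_combination s * ((Fintype.card k : R) * qi + 1) * hq
      rw [h6, h5]
      congr 1
      have h7 : a / c + e' / c' * ((a * e - b * c) * (a' * e' - b' * c') / (c * b' + e * e') ^ 2) =
          (a * b' + b * e') / (c * b' + e * e') := by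
        have h8 : (c * b' + e * e') * c' + c * (a' * e' - b' * c') = 0 := by
          linear_combination e' * hcc
        have h9 : a / c + e' / c' * ((a * e - b * c) * (a' * e' - b' * c') /
            (c * b' + e * e') ^ 2) - (a * b' + b * e') / (c * b' + e * e') =
            (e' * (a * e - b * c) * ((c * b' + e * e') * c' + c * (a' * e' - b' * c'))) /
            (c * c' * (c * b' + e * e') ^ 2) := by
          have e3 : a * (c * b' + e * e') = (a * b' + b * e') * c + e' * (a * e - b * c) := by ring
          generalize c * b' + e * e' = D2 at he2' e3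
          generalize a' * e' - b' * c' = δ'
          field_simp
          linear_combination (c' * D2) * e3
        rw [h8, mul_zero, zero_div] at h9
        exact sub_eq_zero.mp h9
      linear_combination x.norm * h7
    · rw [if_neg hz]
      have hw1 : w ≠ 0 := fun hh => hz (hw0.mp hh)
      have h5 : ∑ y : QuadraticAlgebra k d 0, ψ ((e / c + a' / c') * y.norm - trace (w * star y)) =
          0 := by
        rw [hα]
        have := sum_psi_trace ψ hψ (neg_ne_zero.mpr hw1)
        rw [← this]
        refine Finset.sum_congr rfl fun y _ => ?_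
        rw [zero_mul, zero_sub, neg_mul, LinearMap.map_neg]
      rw [h5, mul_zero]
  · have hα : e / c + a' / c' ≠ 0 := by
      intro h1
      apply hcc
      field_simp at h1
      linear_combination h1
    rw [sum_psi_quad ψ hψ hα, Kf_ne _ _ hcc, hNw]
    have h6 : ∀ s t : R, qi * qi * s * (-(Fintype.card k : R) * t) = -qi * (s * t) := by
      intro s t
      linear_combination (-qi * s * t) * hq
    rw [h6, ← AddChar.map_add_eq_mul]
    congr 2
    have h7 : e / c + a' / c' = (c * a' + e * c') / (c * c') := by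
      field_simp; ring
    rw [h7]
    have hcc' : c * a' + e * c' ≠ 0 := hcc
    have e3 : a * (c * a' + e * c') = c * (a * a' + b * c') + c' * (a * e - b * c) := by ring
    have e4 : e' * (c * a' + e * c') = c' * (c * b' + e * e') + c * (a' * e' - b' * c') := by ring
    generalize c * a' + e * c' = C2 at hcc' e3 e4
    generalize a * a' + b * c' = A2 at e3
    generalize c * b' + e * e' = E2 at e4
    generalize a' * e' - b' * c' = δ' at e4
    generalize a * e - b * c = δ at e3
    field_simp
    linear_combination (c' * x.norm) * e3 + (c * z.norm) * e4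

end

end Fermat.Agent.H29W
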