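import Mathlib
import Fermat.Agent.H29W.Kernel

set_option autoImplicit false
set_option linter.all false

/-! The Kirillov model. -/

namespace Fermat.Agent.H29W

open QuadraticAlgebra Finset

noncomputable section

variable {k : Type*} [Field k] [Fintype k] [DecidableEq k] {d : k}
  [Hd : Fact (∀ r : k, r ^ 2 ≠ d + 0 * r)] {R : Type*} [CommRing R] (ψ : AddChar k R) (qi : R)
  (ξ : MulChar (QuadraticAlgebra k d 0) R)

/-- the matrix coefficient of `(a b; c e)` in the Kirillov model -/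
def Mf (a b c e : k) (s t : k) : R :=
  if c = 0 then (if t = a / e * s then ψ (b / e * s) else 0)
  else -qi * ψ (c⁻¹ * (a * s + e * t)) *
    ∑ z ∈ fib d (s * t * (a * e - b * c)), ψ (-(c⁻¹ * trace z)) * ξ z

/-- from the Kirillov model to the Weil representation -/
def Kap (x : QuadraticAlgebra k d 0) (s : k) : R := if x.norm = s then ξ x⁻¹ else 0

variable {ψ qi ξ}

theorem Mf_zero (a b e s t : k) :
    Mf ψ qi ξ a b 0 e s t = if t = a / e * s then ψ (b / e * s) else 0 := by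
  rw [Mf, if_pos rfl]

theorem Mf_ne (a b : k) {c : k} (hc : c ≠ 0) (e s t : k) :
    Mf ψ qi ξ a b c e s t = -qi * ψ (c⁻¹ * (a * s + e * t)) *
    ∑ z ∈ fib d (s * t * (a * e - b * c)), ψ (-(c⁻¹ * trace z)) * ξ z := by
  rw [Mf, if_neg hc]

theorem xi_inv_mul {x : QuadraticAlgebra k d 0} (hx : x ≠ 0) : ξ x⁻¹ * ξ x = 1 := by
  rw [← map_mul, inv_mul_cancel₀ hx, map_one]

theorem xi_smul (h1 : ∀ a : k, a ≠ 0 → ξ (algebraMap k _ a) = 1) {a : k} (ha : a ≠ 0)
    (x : QuadraticAlgebra k d 0) : ξ (a • x) = ξ x := by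
  rw [Algebra.smul_def, map_mul, h1 a ha, one_mul]

theorem star_ne_zero' {x : QuadraticAlgebra k d 0} (hx : x ≠ 0) : star x ≠ 0 := by
  intro h; exact hx (star_eq_zero.mp h)

theorem xi_star (h1 : ∀ a : k, a ≠ 0 → ξ (algebraMap k _ a) = 1)
    {x : QuadraticAlgebra k d 0} (hx : x ≠ 0) : ξ (star x) = ξ x⁻¹ := by
  have h2 : ξ x * ξ (star x) = 1 := by
    rw [← map_mul, ← algebraMap_norm_eq_mul_star]
    exact h1 _ (fun h => hx (norm_eq_zero_iff_eq_zero.mp h))
  calc ξ (star x) = ξ x⁻¹ * ξ x * ξ (star x) := by rw [xi_inv_mul hx, one_mul]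
    _ = ξ x⁻¹ * (ξ x * ξ (star x)) := mul_assoc _ _ _
    _ = _ := by rw [h2, mul_one]

/-- sums over norm fibres vanish -/
theorem sum_fib_xi_inv (h2 : ∑ u ∈ fib d (1 : k), ξ u = 0)
    (h1 : ∀ a : k, a ≠ 0 → ξ (algebraMap k _ a) = 1) {t : k} (ht : t ≠ 0) :
    ∑ y ∈ fib d t, ξ y⁻¹ = 0 := by
  obtain ⟨z, hz⟩ := norm_surj (hd_of_fact (d := d)) t
  have hz0 : z ≠ 0 := by
    rintro rfl; rw [QuadraticAlgebra.norm_zero] at hz; exact ht hz.symm
  have h3 : ∑ y ∈ fib d t, ξ y⁻¹ = ∑ u ∈ fib d (1 : k), ξ z⁻¹ * ξ u := by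
    refine Finset.sum_bij' (fun y _ => z * y⁻¹) (fun u _ => z * u⁻¹) ?_ ?_ ?_ ?_ ?_
    · intro y hy
      rw [mem_fib] at hy ⊢
      rw [map_mul, norm_inv', hy, hz, mul_inv_cancel₀ ht]
    · intro u hu
      rw [mem_fib] at hu ⊢
      rw [map_mul, norm_inv', hu, hz, inv_one, mul_one]
    · intro y _; rw [mul_inv, inv_inv, ← mul_assoc, mul_inv_cancel₀ hz0, one_mul]
    · intro y _; rw [mul_inv, inv_inv, ← mul_assoc, mul_inv_cancel₀ hz0, one_mul]
    · intro y _
      rw [← map_mul, ← mul_assoc, inv_mul_cancel₀ hz0, one_mul]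
  rw [h3, ← Finset.mul_sum, h2, mul_zero]

theorem Kap_zero {s : k} (hs : s ≠ 0) : Kap ξ (0 : QuadraticAlgebra k d 0) s = 0 := by
  rw [Kap, if_neg]
  rw [QuadraticAlgebra.norm_zero]; exact hs.symm

theorem sum_Kap_mul (x : QuadraticAlgebra k d 0) (F : k → R) :
    ∑ s : kˣ, Kap ξ x s * F s = if x = 0 then 0 else ξ x⁻¹ * F x.norm := by
  by_cases hx : x = 0
  · rw [if_pos hx, hx]
    refine Finset.sum_eq_zero fun s _ => ?_
    rw [Kap_zero s.ne_zero, zero_mul]
  · rw [if_neg hx]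
    have hn : x.norm ≠ 0 := fun h => hx (norm_eq_zero_iff_eq_zero.mp h)
    rw [Finset.sum_eq_single (Units.mk0 x.norm hn)]
    · rw [Kap, Units.val_mk0, if_pos rfl]
    · intro s _ hs
      rw [Kap, if_neg, zero_mul]
      intro h; exact hs (Units.ext (by rw [Units.val_mk0, h]))
    · intro h; exact absurd (Finset.mem_univ _) h

/-- intertwining -/
theorem Kf_Kap (h1 : ∀ a : k, a ≠ 0 → ξ (algebraMap k _ a) = 1)
    (h2 : ∑ u ∈ fib d (1 : k), ξ u = 0)
    {a b c e : k} {β : QuadraticAlgebra k d 0} (h : β.norm = a * e - b * c)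
    (h0 : a * e - b * c ≠ 0) (x : QuadraticAlgebra k d 0) (t : kˣ) :
    ξ β * ∑ y, Kf ψ qi a b c e β x y * Kap ξ y t = ∑ s : kˣ, Kap ξ x s * Mf ψ qi ξ a b c e s t := by
  have hβ : β ≠ 0 := by
    rintro rfl; rw [QuadraticAlgebra.norm_zero] at h; exact h0 h.symm
  rw [sum_Kap_mul x (fun s => Mf ψ qi ξ a b c e s t)]
  by_cases hc : c = 0
  · subst hc
    have ha : a ≠ 0 := by rintro rfl; exact h0 (by ring)
    have he : e ≠ 0 := by rintro rfl; exact h0 (by ring)
    simp_rw [Kf_zero, ite_mul, zero_mul]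
    rw [Finset.sum_ite_eq' Finset.univ, if_pos (Finset.mem_univ _)]
    have hN : (e⁻¹ • (β * x)).norm = a / e * x.norm := by
      rw [norm_smul', map_mul, h]; field_simp; ring
    by_cases hx : x = 0
    · rw [if_pos hx, hx, mul_zero, smul_zero, Kap_zero t.ne_zero, mul_zero, mul_zero]
    · rw [if_neg hx, Mf_zero, Kap, hN]
      by_cases ht : (t : k) = a / e * x.norm
      · rw [if_pos ht, if_pos ht.symm]
        have h3 : ξ (e⁻¹ • (β * x))⁻¹ = ξ β⁻¹ * ξ x⁻¹ := by
          have : (e⁻¹ • (β * x))⁻¹ = e • (β⁻¹ * x⁻¹) := by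
            have h4 : e⁻¹ • (β * x) ≠ 0 := by
              rw [Algebra.smul_def]
              refine mul_ne_zero ?_ (mul_ne_zero hβ hx)
              rw [Ne, map_eq_zero_iff _ (algebraMap k _).injective]
              exact inv_ne_zero he
            apply inv_eq_of_mul_eq_one_right
            rw [smul_mul_smul_comm, inv_mul_cancel₀ he, one_smul]
            field_simp
          rw [this, xi_smul h1 he, map_mul]
        rw [h3]
        have h5 := xi_inv_mul (ξ := ξ) hβ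
        linear_combination (ψ (b / e * x.norm) * ξ x⁻¹) * h5
      · rw [if_neg ht, if_neg (fun hh => ht hh.symm), mul_zero, mul_zero, mul_zero]
  · simp_rw [Kf_ne _ _ hc]
    have h3 : ∀ y : QuadraticAlgebra k d 0, -qi * ψ (c⁻¹ * (a * x.norm - trace (β * x * star y) +
        e * y.norm)) * Kap ξ y t = if y.norm = t then -qi * ψ (c⁻¹ * (a * x.norm + e * t)) *
          (ψ (-(c⁻¹ * trace (β * x * star y))) * ξ y⁻¹) else 0 := by
      intro y
      rw [Kap]
      by_cases hy : y.norm = t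
      · rw [if_pos hy, if_pos hy, hy]
        have : ψ (c⁻¹ * (a * x.norm - trace (β * x * star y) + e * t)) =
            ψ (c⁻¹ * (a * x.norm + e * t)) * ψ (-(c⁻¹ * trace (β * x * star y))) := by
          rw [← AddChar.map_add_eq_mul]; congr 1; ring
        rw [this]; ring
      · rw [if_neg hy, if_neg hy, mul_zero]
    simp_rw [h3]
    rw [← Finset.sum_filter]
    change ξ β * ∑ y ∈ fib d (t : k), _ = _
    rw [← Finset.mul_sum]
    by_cases hx : x = 0
    · rw [if_pos hx, hx]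
      simp only [mul_zero, zero_mul, map_zero, neg_zero, AddChar.map_zero_eq_one, one_mul]
      rw [sum_fib_xi_inv h2 h1 t.ne_zero, mul_zero, mul_zero]
    · rw [if_neg hx, Mf_ne _ _ hc]
      have hxn : x.norm ≠ 0 := fun h => hx (norm_eq_zero_iff_eq_zero.mp h)
      have hbx : β * x ≠ 0 := mul_ne_zero hβ hx
      have h4 : ∑ z ∈ fib d (x.norm * t * (a * e - b * c)), ψ (-(c⁻¹ * trace z)) * ξ z =
          ∑ y ∈ fib d (t : k), ψ (-(c⁻¹ * trace (β * x * star y))) * ξ (β * x * star y) := by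
        refine Finset.sum_bij' (fun z _ => star ((β * x)⁻¹ * z)) (fun y _ => β * x * star y)
          ?_ ?_ ?_ ?_ ?_
        · intro z hz
          rw [mem_fib] at hz ⊢
          rw [QuadraticAlgebra.norm_star, map_mul, norm_inv', map_mul, hz, h]
          field_simp
        · intro y hy
          rw [mem_fib] at hy ⊢
          rw [map_mul, map_mul, QuadraticAlgebra.norm_star, hy, h]; ring
        · intro z _
          simp only [star_star]
          rw [← mul_assoc, mul_inv_cancel₀ hbx, one_mul]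
        · intro y _
          rw [← mul_assoc, inv_mul_cancel₀ hbx, one_mul, star_star]
        · intro z _
          simp only [star_star]
          rw [← mul_assoc, mul_inv_cancel₀ hbx, one_mul]
      rw [h4]
      have h5 : ∀ y ∈ fib d (t : k), ψ (-(c⁻¹ * trace (β * x * star y))) * ξ (β * x * star y) =
          ξ β * ξ x * (ψ (-(c⁻¹ * trace (β * x * star y))) * ξ y⁻¹) := by
        intro y hy
        rw [mem_fib] at hy
        have hy0 : y ≠ 0 := by
          rintro rfl; rw [QuadraticAlgebra.norm_zero] at hy; exact t.ne_zero hy.symm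
        rw [map_mul ξ, map_mul ξ, xi_star h1 hy0]; ring
      rw [Finset.sum_congr rfl h5, ← Finset.mul_sum]
      have h6 := xi_inv_mul (ξ := ξ) hx
      linear_combination (-(ξ β * (-qi * ψ (c⁻¹ * (a * x.norm + e * t)) *
        ∑ y ∈ fib d (t : k), ψ (-(c⁻¹ * trace (β * x * star y))) * ξ y⁻¹))) * h6

/-- cancellation -/
theorem Kap_cancel {F G : k → R} (h : ∀ x : QuadraticAlgebra k d 0,
    ∑ s : kˣ, Kap ξ x s * F s = ∑ s : kˣ, Kap ξ x s * G s) {s : k} (hs : s ≠ 0) : F s = G s := by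
  obtain ⟨z, hz⟩ := norm_surj (hd_of_fact (d := d)) s
  have hz0 : z ≠ 0 := by
    rintro rfl; rw [QuadraticAlgebra.norm_zero] at hz; exact hs hz.symm
  have h1 := h z
  rw [sum_Kap_mul, sum_Kap_mul, if_neg hz0, if_neg hz0, hz] at h1
  have h2 := xi_inv_mul (ξ := ξ) hz0
  calc F s = ξ z⁻¹ * ξ z * F s := by rw [h2, one_mul]
    _ = ξ z * (ξ z⁻¹ * F s) := by ring
    _ = ξ z * (ξ z⁻¹ * G s) := by rw [h1]
    _ = ξ z⁻¹ * ξ z * G s := by ring
    _ = G s := by rw [h2, one_mul]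

theorem Kf_mul (hq : (Fintype.card k : R) * qi = 1) (hψ : ∀ a ≠ 0, ∑ x, ψ (a * x) = 0)
    {a b c e a' b' c' e' : k} {β β' : QuadraticAlgebra k d 0}
    (h : β.norm = a * e - b * c) (h0 : a * e - b * c ≠ 0) (h' : β'.norm = a' * e' - b' * c')
    (h0' : a' * e' - b' * c' ≠ 0) (x z : QuadraticAlgebra k d 0) :
    ∑ y, Kf ψ qi a b c e β x y * Kf ψ qi a' b' c' e' β' y z =
      Kf ψ qi (a * a' + b * c') (a * b' + b * e') (c * a' + e * c') (c * b' + e * e') (β * β')
        x z := by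
  by_cases hc : c = 0
  · subst hc
    exact Kf_mul_zero_left (by rw [h]; ring) (by simpa using h0) h' h0' x z
  by_cases hc' : c' = 0
  · subst hc'
    exact Kf_mul_zero_right hc h h0 (by rw [h']; ring) (by simpa using h0') x z
  exact Kf_mul_ne hq hψ hc hc' h h0 h' h0' x z

theorem Mf_mul (hq : (Fintype.card k : R) * qi = 1) (hψ : ∀ a ≠ 0, ∑ x, ψ (a * x) = 0)
    (h1 : ∀ a : k, a ≠ 0 → ξ (algebraMap k _ a) = 1) (h2 : ∑ u ∈ fib d (1 : k), ξ u = 0)
    {a b c e a' b' c' e' : k} (h0 : a * e - b * c ≠ 0) (h0' : a' * e' - b' * c' ≠ 0)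
    {s r : k} (hs : s ≠ 0) (hr : r ≠ 0) :
    ∑ t : kˣ, Mf ψ qi ξ a b c e s t * Mf ψ qi ξ a' b' c' e' t r =
      Mf ψ qi ξ (a * a' + b * c') (a * b' + b * e') (c * a' + e * c') (c * b' + e * e') s r := by
  obtain ⟨β, h⟩ := norm_surj (hd_of_fact (d := d)) (a * e - b * c)
  obtain ⟨β', h'⟩ := norm_surj (hd_of_fact (d := d)) (a' * e' - b' * c')
  lift r to kˣ using isUnit_iff_ne_zero.mpr hr
  refine Kap_cancel (d := d) (ξ := ξ)
    (F := fun s => ∑ t : kˣ, Mf ψ qi ξ a b c e s t * Mf ψ qi ξ a' b' c' e' t r)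
    (G := fun s => Mf ψ qi ξ (a * a' + b * c') (a * b' + b * e') (c * a' + e * c')
      (c * b' + e * e') s r) (fun x => ?_) hs
  have hdet : (β * β').norm = (a * a' + b * c') * (c * b' + e * e') -
      (a * b' + b * e') * (c * a' + e * c') := by
    rw [map_mul, h, h']; ring
  have hdet0 : (a * a' + b * c') * (c * b' + e * e') - (a * b' + b * e') * (c * a' + e * c') ≠ 0 := by
    rw [← hdet, map_mul, h, h']; exact mul_ne_zero h0 h0'
  rw [← Kf_Kap h1 h2 hdet hdet0 x r]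
  simp_rw [Finset.mul_sum]
  rw [Finset.sum_comm]
  calc ∑ t : kˣ, ∑ s : kˣ, Kap ξ x s * (Mf ψ qi ξ a b c e s t * Mf ψ qi ξ a' b' c' e' t r)
      = ∑ t : kˣ, (ξ β * ∑ y, Kf ψ qi a b c e β x y * Kap ξ y t) * Mf ψ qi ξ a' b' c' e' t r := by
        refine Finset.sum_congr rfl fun t _ => ?_
        rw [Kf_Kap h1 h2 h h0 x t, Finset.sum_mul]
        refine Finset.sum_congr rfl fun s _ => ?_
        ring
    _ = ∑ y, ξ β * Kf ψ qi a b c e β x y * ∑ t : kˣ, Kap ξ y t * Mf ψ qi ξ a' b' c' e' t r := by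
        simp_rw [Finset.mul_sum, Finset.sum_mul]
        rw [Finset.sum_comm]
        refine Finset.sum_congr rfl fun y _ => Finset.sum_congr rfl fun t _ => ?_
        ring
    _ = ∑ y, ξ β * Kf ψ qi a b c e β x y *
          (ξ β' * ∑ z, Kf ψ qi a' b' c' e' β' y z * Kap ξ z r) := by
        refine Finset.sum_congr rfl fun y _ => ?_
        rw [Kf_Kap h1 h2 h' h0' y r]
    _ = ∑ z, ξ (β * β') * ((∑ y, Kf ψ qi a b c e β x y * Kf ψ qi a' b' c' e' β' y z) *
          Kap ξ z r) := by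
        simp_rw [Finset.mul_sum, Finset.sum_mul, Finset.mul_sum]
        rw [Finset.sum_comm]
        refine Finset.sum_congr rfl fun z _ => Finset.sum_congr rfl fun y _ => ?_
        rw [map_mul]; ring
    _ = _ := by
        refine Finset.sum_congr rfl fun z _ => ?_
        rw [Kf_mul hq hψ h h0 h' h0' x z]

end

end Fermat.Agent.H29W
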