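import Mathlib
import Fermat.Agent.H29W.Kir

set_option autoImplicit false
set_option linter.all false

/-! The Weil representation and the Kirillov model over a product of fields. -/

namespace Fermat.Agent.H29Z

open Fermat.Agent.H29W

open QuadraticAlgebra Finset

noncomputable section

/-- the quadratic algebra `R[√d]` -/
abbrev QI (R : Type*) [CommRing R] (d : ℤ) : Type _ := QuadraticAlgebra R (d : R) 0

/-- functoriality of `QuadraticAlgebra` -/
def qmap {R S : Type*} [CommRing R] [CommRing S] (φ : R →+* S) (d : ℤ) : QI R d →+* QI S d where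
  toFun x := ⟨φ x.re, φ x.im⟩
  map_one' := by ext <;> simp
  map_zero' := by ext <;> simp
  map_add' x y := by ext <;> simp
  map_mul' x y := by ext <;> simp

theorem qmap_re {R S : Type*} [CommRing R] [CommRing S] (φ : R →+* S) (d : ℤ)
    (x : QI R d) : (qmap φ d x).re = φ x.re := rfl

theorem qmap_im {R S : Type*} [CommRing R] [CommRing S] (φ : R →+* S) (d : ℤ)
    (x : QI R d) : (qmap φ d x).im = φ x.im := rfl

theorem qmap_norm {R S : Type*} [CommRing R] [CommRing S] (φ : R →+* S) (d : ℤ)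
    (x : QI R d) : (qmap φ d x).norm = φ x.norm := by
  simp [norm_def, qmap]

theorem qmap_trace {R S : Type*} [CommRing R] [CommRing S] (φ : R →+* S) (d : ℤ)
    (x : QI R d) : trace (qmap φ d x) = φ (trace x) := by
  simp only [trace_def, zero_mul, add_zero, map_mul, map_ofNat]
  rfl

theorem qmap_smul {R S : Type*} [CommRing R] [CommRing S] (φ : R →+* S) (d : ℤ) (c : R)
    (x : QI R d) : qmap φ d (c • x) = φ c • qmap φ d x := by
  ext <;> simp [qmap]

theorem qmap_star {R S : Type*} [CommRing R] [CommRing S] (φ : R →+* S) (d : ℤ)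
    (x : QI R d) : qmap φ d (star x) = star (qmap φ d x) := by
  ext <;> simp [qmap]

theorem addChar_sum {A M ι : Type*} [AddCommMonoid A] [CommMonoid M] (ψ : AddChar A M)
    (s : Finset ι) (f : ι → A) : ψ (∑ i ∈ s, f i) = ∏ i ∈ s, ψ (f i) := by
  classical
  induction s using Finset.induction_on with
  | empty => simp
  | insert a s ha ih => rw [Finset.sum_insert ha, Finset.prod_insert ha, AddChar.map_add_eq_mul, ih]

/-- `d` is not a square in `k` -/
class Inert (k : Type*) [Field k] (d : ℤ) : Prop where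
  nonsq : ∀ r : k, r ^ 2 ≠ (d : k)

instance (k : Type*) [Field k] (d : ℤ) [Inert k d] : Fact (∀ r : k, r ^ 2 ≠ (d : k) + 0 * r) :=
  ⟨fun r h => Inert.nonsq (d := d) r (by rw [h]; ring)⟩

/-- local data -/
structure LData (k : Type*) [Field k] [Fintype k] [DecidableEq k] (d : ℤ) [Inert k d]
    (R : Type*) [CommRing R] where
  ψ : AddChar k R
  qi : R
  ξ : MulChar (QI k d) R
  hq : (Fintype.card k : R) * qi = 1
  hψ : ∀ a ≠ 0, ∑ x, ψ (a * x) = 0
  h1 : ∀ a : k, a ≠ 0 → ξ (algebraMap k _ a) = 1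
  h2 : ∑ u ∈ fib (d : k) (1 : k), ξ u = 0

section

variable {ι : Type*} [Fintype ι] [DecidableEq ι] {k : ι → Type*} [∀ i, Field (k i)]
  [∀ i, Fintype (k i)] [∀ i, DecidableEq (k i)] {Z : Type*} [CommRing Z] [Fintype Z]
  [DecidableEq Z] (E : Z ≃+* ((i : ι) → k i)) (d : ℤ)

/-- projections -/
def pr (i : ι) : Z →+* k i := (Pi.evalRingHom k i).comp (E : Z →+* ((i : ι) → k i))

theorem pr_apply (i : ι) (z : Z) : pr E i z = E z i := rfl

/-- inclusions -/
def inj (i : ι) : k i →+ Z :=
  (E.symm : ((i : ι) → k i) ≃+* Z).toAddEquiv.toAddMonoidHom.comp (AddMonoidHom.single k i)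

theorem inj_apply (i : ι) (u : k i) : inj E i u = E.symm (Pi.single i u) := rfl

theorem pr_inj_same (i : ι) (u : k i) : pr E i (inj E i u) = u := by
  rw [inj_apply, pr_apply, RingEquiv.apply_symm_apply, Pi.single_eq_same]

theorem pr_inj_ne {i j : ι} (h : j ≠ i) (u : k i) : pr E j (inj E i u) = 0 := by
  rw [inj_apply, pr_apply, RingEquiv.apply_symm_apply, Pi.single_eq_of_ne h]

theorem sum_inj_pr (z : Z) : ∑ i, inj E i (pr E i z) = z := by
  apply E.injective
  rw [map_sum]
  ext j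
  rw [Finset.sum_apply]
  simp_rw [inj_apply, RingEquiv.apply_symm_apply, pr_apply]
  rw [Finset.sum_eq_single j]
  · rw [Pi.single_eq_same]
  · intro i _ hij; rw [Pi.single_eq_of_ne (Ne.symm hij)]
  · intro h; exact absurd (Finset.mem_univ _) h

theorem pr_ext {z w : Z} (h : ∀ i, pr E i z = pr E i w) : z = w :=
  E.injective (funext h)

/-- the decomposition of the quadratic algebra -/
def eqA : QI Z d ≃ ((i : ι) → QI (k i) d) where
  toFun x i := qmap (pr E i) d x
  invFun y := ⟨E.symm fun i => (y i).re, E.symm fun i => (y i).im⟩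
  left_inv x := by
    ext
    · change E.symm (fun i => E x.re i) = _
      exact E.symm_apply_apply _
    · change E.symm (fun i => E x.im i) = _
      exact E.symm_apply_apply _
  right_inv y := by
    funext i
    ext
    · change E (E.symm _) i = _
      rw [RingEquiv.apply_symm_apply]
    · change E (E.symm _) i = _
      rw [RingEquiv.apply_symm_apply]

theorem eqA_apply (x : QI Z d) (i : ι) : eqA E d x i = qmap (pr E i) d x := rfl

variable {d} in
theorem qmap_ext {x y : QI Z d} (h : ∀ i, qmap (pr E i) d x = qmap (pr E i) d y) : x = y :=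
  (eqA E d).injective (funext h)

/-- the decomposition of the units -/
def eqU : Zˣ ≃ ((i : ι) → (k i)ˣ) :=
  (Units.mapEquiv E.toMulEquiv).toEquiv.trans MulEquiv.piUnits.toEquiv

theorem eqU_apply (t : Zˣ) (i : ι) : ((eqU E t i : (k i)ˣ) : k i) = pr E i t := rfl

theorem sum_eqA {R : Type*} [CommRing R] (F : (i : ι) → QI (k i) d → R) :
    ∑ y : QI Z d, ∏ i, F i (qmap (pr E i) d y) = ∏ i, ∑ y, F i y := by
  rw [Finset.prod_univ_sum, Fintype.piFinset_univ, ← Equiv.sum_comp (eqA E d)]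
  rfl

theorem sum_eqU {R : Type*} [CommRing R] (F : (i : ι) → k i → R) :
    ∑ t : Zˣ, ∏ i, F i (pr E i t) = ∏ i, ∑ t : (k i)ˣ, F i t := by
  rw [Finset.prod_univ_sum, Fintype.piFinset_univ, ← Equiv.sum_comp (eqU E)]
  rfl

theorem pr_unit_ne (i : ι) (t : Zˣ) : pr E i t ≠ 0 := (t.isUnit.map (pr E i)).ne_zero

variable [∀ i, Inert (k i) d] {R : Type*} [CommRing R]

variable {d} (D : (i : ι) → LData (k i) d R)

/-- the global additive character -/
def bigΨ : AddChar Z R where
  toFun z := ∏ i, (D i).ψ (pr E i z)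
  map_zero_eq_one' := by simp
  map_add_eq_mul' a b := by
    rw [← Finset.prod_mul_distrib]
    refine Finset.prod_congr rfl fun i _ => ?_
    rw [map_add (pr E i), AddChar.map_add_eq_mul]

theorem bigΨ_apply (z : Z) : bigΨ E D z = ∏ i, (D i).ψ (pr E i z) := rfl

/-- the global multiplicative character -/
def bigξ : QI Z d →* R where
  toFun x := ∏ i, (D i).ξ (qmap (pr E i) d x)
  map_one' := by simp
  map_mul' a b := by
    rw [← Finset.prod_mul_distrib]
    refine Finset.prod_congr rfl fun i _ => ?_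
    rw [map_mul (qmap (pr E i) d), map_mul]

/-- the kernels of the Weil representation of `SL₂` -/
def bigK (g : Matrix (Fin 2) (Fin 2) Z) : Matrix (QI Z d) (QI Z d) R := fun x y =>
  ∏ i, Kf (D i).ψ (D i).qi (pr E i (g 0 0)) (pr E i (g 0 1)) (pr E i (g 1 0)) (pr E i (g 1 1)) 1
    (qmap (pr E i) d x) (qmap (pr E i) d y)

/-- the matrices of the Kirillov model -/
def bigM (g : Matrix (Fin 2) (Fin 2) Z) : Matrix Zˣ Zˣ R := fun s t =>
  ∏ i, Mf (D i).ψ (D i).qi (D i).ξ (pr E i (g 0 0)) (pr E i (g 0 1)) (pr E i (g 1 0))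
    (pr E i (g 1 1)) (pr E i s) (pr E i t)

/-- from the Kirillov model to the Weil representation -/
def kap : Matrix (QI Z d) Zˣ R := fun x s =>
  ∏ i, Kap (D i).ξ (qmap (pr E i) d x) (pr E i s)

theorem pr_det (g : Matrix (Fin 2) (Fin 2) Z) (i : ι) : pr E i (g 0 0) * pr E i (g 1 1) -
    pr E i (g 0 1) * pr E i (g 1 0) = pr E i g.det := by
  rw [Matrix.det_fin_two, map_sub, map_mul, map_mul]

theorem bigK_mul {g g' : Matrix (Fin 2) (Fin 2) Z} (hg : g.det = 1) (hg' : g'.det = 1) :
    bigK E D g * bigK E D g' = bigK E D (g * g') := by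
  ext x z
  rw [Matrix.mul_apply]
  simp only [bigK]
  simp_rw [← Finset.prod_mul_distrib]
  rw [sum_eqA E d (fun i y => Kf (D i).ψ (D i).qi (pr E i (g 0 0)) (pr E i (g 0 1))
    (pr E i (g 1 0)) (pr E i (g 1 1)) 1 (qmap (pr E i) d x) y *
    Kf (D i).ψ (D i).qi (pr E i (g' 0 0)) (pr E i (g' 0 1))
    (pr E i (g' 1 0)) (pr E i (g' 1 1)) 1 y (qmap (pr E i) d z))]
  refine Finset.prod_congr rfl fun i _ => ?_
  rw [Kf_mul (D i).hq (D i).hψ (by rw [pr_det, hg, map_one, map_one])
    (by rw [pr_det, hg, map_one]; exact one_ne_zero) (by rw [pr_det, hg', map_one, map_one])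
    (by rw [pr_det, hg', map_one]; exact one_ne_zero), mul_one]
  simp only [Matrix.mul_apply, Fin.sum_univ_two, map_add, map_mul]

theorem bigK_one : bigK E D 1 = 1 := by
  ext x y
  rw [Matrix.one_apply]
  simp only [bigK]
  by_cases h : x = y
  · subst h
    rw [if_pos rfl]
    refine Finset.prod_eq_one fun i _ => ?_
    simp [Kf]
  · rw [if_neg h]
    have h1 : ∃ i, qmap (pr E i) d x ≠ qmap (pr E i) d y := by
      by_contra hcon
      push Not at hcon
      exact h (qmap_ext E hcon)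
    obtain ⟨i, hi⟩ := h1
    refine Finset.prod_eq_zero (Finset.mem_univ i) ?_
    simp [Kf]
    intro h; exact absurd h.symm hi

/-- the Weil representation of `SL₂` -/
def rho : Matrix.SpecialLinearGroup (Fin 2) Z →* Matrix (QI Z d) (QI Z d) R where
  toFun g := bigK E D g.1
  map_one' := bigK_one E D
  map_mul' g g' := (bigK_mul E D g.2 g'.2).symm

/-- explicit formula, `c` unit -/
theorem bigK_of_isUnit {g : Matrix (Fin 2) (Fin 2) Z} {c' : Z} (hc : c' * g 1 0 = 1)
    (x y : QI Z d) :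
    bigK E D g x y = (∏ i, (-(D i).qi)) * bigΨ E D (c' * (g 0 0 * x.norm - trace (x * star y) +
      g 1 1 * y.norm)) := by
  rw [bigK, bigΨ_apply, ← Finset.prod_mul_distrib]
  refine Finset.prod_congr rfl fun i _ => ?_
  have h1 : pr E i c' * pr E i (g 1 0) = 1 := by rw [← map_mul, hc, map_one]
  have h2 : pr E i (g 1 0) ≠ 0 := right_ne_zero_of_mul_eq_one h1
  rw [Kf_ne _ _ h2, ← eq_inv_of_mul_eq_one_left h1, one_mul, qmap_norm, qmap_norm, ← qmap_star,
    ← map_mul (qmap (pr E i) d), qmap_trace, map_mul (pr E i), map_add (pr E i), map_sub (pr E i),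
    map_mul (pr E i), map_mul (pr E i)]

/-- explicit formula, upper triangular -/
theorem bigK_of_zero {g : Matrix (Fin 2) (Fin 2) Z} {e' : Z} (hc : g 1 0 = 0)
    (he : e' * g 1 1 = 1) (x y : QI Z d) :
    bigK E D g x y = if y = e' • x then bigΨ E D (g 0 1 * e' * x.norm) else 0 := by
  have h1 : ∀ i, pr E i e' * pr E i (g 1 1) = 1 := by
    intro i; rw [← map_mul, he, map_one]
  have h2 : ∀ i, (pr E i (g 1 1))⁻¹ = pr E i e' := fun i =>
    (eq_inv_of_mul_eq_one_left (h1 i)).symm
  simp only [bigK, hc, map_zero, Kf_zero, one_mul, h2, div_eq_mul_inv, qmap_norm]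
  by_cases h : y = e' • x
  · subst h
    rw [if_pos rfl, bigΨ_apply]
    refine Finset.prod_congr rfl fun i _ => ?_
    rw [if_pos (qmap_smul _ _ _ _), map_mul (pr E i), map_mul (pr E i)]
  · rw [if_neg h]
    have h4 : ∃ i, qmap (pr E i) d y ≠ qmap (pr E i) d (e' • x) := by
      by_contra hcon
      push Not at hcon
      exact h (qmap_ext E hcon)
    obtain ⟨i, hi⟩ := h4
    refine Finset.prod_eq_zero (Finset.mem_univ i) ?_
    rw [if_neg]
    intro h5; exact hi (h5.trans (qmap_smul _ _ _ _).symm)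

theorem bigM_mul {g g' : Matrix (Fin 2) (Fin 2) Z} (hg : IsUnit g.det) (hg' : IsUnit g'.det) :
    bigM E D g * bigM E D g' = bigM E D (g * g') := by
  ext s r
  rw [Matrix.mul_apply]
  simp only [bigM]
  simp_rw [← Finset.prod_mul_distrib]
  rw [sum_eqU E (fun i t => Mf (D i).ψ (D i).qi (D i).ξ (pr E i (g 0 0)) (pr E i (g 0 1))
    (pr E i (g 1 0)) (pr E i (g 1 1)) (pr E i s) t *
    Mf (D i).ψ (D i).qi (D i).ξ (pr E i (g' 0 0)) (pr E i (g' 0 1))
    (pr E i (g' 1 0)) (pr E i (g' 1 1)) t (pr E i r))]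
  refine Finset.prod_congr rfl fun i _ => ?_
  rw [Mf_mul (D i).hq (D i).hψ (D i).h1 (D i).h2
    (by rw [pr_det]; exact (hg.map (pr E i)).ne_zero)
    (by rw [pr_det]; exact (hg'.map (pr E i)).ne_zero) (pr_unit_ne E i s) (pr_unit_ne E i r)]
  simp only [Matrix.mul_apply, Fin.sum_univ_two, map_add, map_mul]

/-- upper triangular matrices in the Kirillov model -/
theorem bigM_of_zero {g : Matrix (Fin 2) (Fin 2) Z} {e' : Z} (hc : g 1 0 = 0)
    (he : e' * g 1 1 = 1) (s t : Zˣ) :
    bigM E D g s t = if (t : Z) = g 0 0 * e' * s then bigΨ E D (g 0 1 * e' * s) else 0 := by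
  have h1 : ∀ i, pr E i e' * pr E i (g 1 1) = 1 := by
    intro i; rw [← map_mul, he, map_one]
  have h2 : ∀ i, (pr E i (g 1 1))⁻¹ = pr E i e' := fun i =>
    (eq_inv_of_mul_eq_one_left (h1 i)).symm
  simp only [bigM, hc, map_zero, Mf_zero, h2, div_eq_mul_inv]
  by_cases h : (t : Z) = g 0 0 * e' * s
  · rw [if_pos h, bigΨ_apply]
    refine Finset.prod_congr rfl fun i _ => ?_
    rw [if_pos (by rw [h, map_mul, map_mul]), map_mul (pr E i), map_mul (pr E i)]
  · rw [if_neg h]
    have h4 : ∃ i, pr E i (t : Z) ≠ pr E i (g 0 0 * e' * s) := by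
      by_contra hcon
      push Not at hcon
      exact h (pr_ext E hcon)
    obtain ⟨i, hi⟩ := h4
    refine Finset.prod_eq_zero (Finset.mem_univ i) ?_
    rw [if_neg]
    intro h5; exact hi (by rw [h5, map_mul, map_mul])

theorem bigM_one : bigM E D 1 = 1 := by
  ext s t
  have h0 : (1 : Matrix (Fin 2) (Fin 2) Z) 1 0 = 0 := by simp
  have h1 : (1 : Z) * (1 : Matrix (Fin 2) (Fin 2) Z) 1 1 = 1 := by simp
  have h2 : (1 : Matrix (Fin 2) (Fin 2) Z) 0 0 = 1 := by simp
  have h3 : (1 : Matrix (Fin 2) (Fin 2) Z) 0 1 = 0 := by simp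
  rw [bigM_of_zero E D h0 h1, h2, h3]
  rw [mul_one, one_mul, zero_mul, zero_mul, AddChar.map_zero_eq_one]
  by_cases h : s = t
  · subst h; rw [if_pos rfl, Matrix.one_apply_eq]
  · rw [Matrix.one_apply_ne h, if_neg]
    intro h'
    exact h (Units.ext h').symm

/-- the Kirillov model as a homomorphism to matrices -/
def kirM : GL (Fin 2) Z →* Matrix Zˣ Zˣ R where
  toFun g := bigM E D g.1
  map_one' := bigM_one E D
  map_mul' g g' := (bigM_mul E D ((Matrix.isUnit_iff_isUnit_det _).mp g.isUnit)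
    ((Matrix.isUnit_iff_isUnit_det _).mp g'.isUnit)).symm

/-- the Kirillov model -/
def kir : GL (Fin 2) Z →* Module.End R (Zˣ → R) where
  toFun g := (kirM E D g).mulVecLin
  map_one' := by rw [map_one, Matrix.mulVecLin_one]; rfl
  map_mul' g g' := by rw [map_mul, Matrix.mulVecLin_mul]; rfl

theorem kir_apply (g : GL (Fin 2) Z) (φ : Zˣ → R) (s : Zˣ) :
    kir E D g φ s = ∑ t, bigM E D g.1 s t * φ t := rfl

/-- `κ` intertwines -/
theorem bigK_kap {g : Matrix (Fin 2) (Fin 2) Z} (hg : g.det = 1) :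
    bigK E D g * kap E D = kap E D * bigM E D g := by
  ext x t
  rw [Matrix.mul_apply, Matrix.mul_apply]
  simp only [bigK, bigM, kap]
  simp_rw [← Finset.prod_mul_distrib]
  rw [sum_eqU E (fun i s => Kap (D i).ξ (qmap (pr E i) d x) s *
    Mf (D i).ψ (D i).qi (D i).ξ (pr E i (g 0 0)) (pr E i (g 0 1))
    (pr E i (g 1 0)) (pr E i (g 1 1)) s (pr E i t)),
    sum_eqA E d (fun i y => Kf (D i).ψ (D i).qi (pr E i (g 0 0)) (pr E i (g 0 1))
    (pr E i (g 1 0)) (pr E i (g 1 1)) 1 (qmap (pr E i) d x) y *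
    Kap (D i).ξ y (pr E i t))]
  refine Finset.prod_congr rfl fun i _ => ?_
  have h := Kf_Kap (ψ := (D i).ψ) (qi := (D i).qi) (D i).h1 (D i).h2 (β := 1)
    (a := pr E i (g 0 0)) (b := pr E i (g 0 1)) (c := pr E i (g 1 0)) (e := pr E i (g 1 1))
    (by rw [pr_det, hg, map_one, map_one])
    (by rw [pr_det, hg, map_one]; exact one_ne_zero) (qmap (pr E i) d x) (eqU E t i)
  rw [map_one, one_mul] at h
  exact h

/-- value of `κ` -/
theorem sum_kap (x : QI Z d) (φ : Zˣ → R) (s : Zˣ) (hs : x.norm = s) :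
    bigξ E D x * ∑ t, kap E D x t * φ t = φ s := by
  have h0 : ∀ i, qmap (pr E i) d x ≠ 0 := by
    intro i h
    have h1 := congrArg QuadraticAlgebra.norm h
    rw [qmap_norm, hs, QuadraticAlgebra.norm_zero] at h1
    exact pr_unit_ne E i s h1
  rw [Finset.sum_eq_single s]
  · have h1 : bigξ E D x * kap E D x s = 1 := by
      show (∏ i, (D i).ξ (qmap (pr E i) d x)) * _ = 1
      rw [kap, ← Finset.prod_mul_distrib]
      refine Finset.prod_eq_one fun i _ => ?_
      rw [Kap, if_pos (by rw [qmap_norm, hs]), mul_comm]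
      exact xi_inv_mul (h0 i)
    rw [← mul_assoc, h1, one_mul]
  · intro t _ ht
    have h1 : ∃ i, pr E i x.norm ≠ pr E i t := by
      by_contra hcon
      push Not at hcon
      have := pr_ext E hcon
      rw [hs] at this
      exact ht (Units.ext this).symm
    obtain ⟨i, hi⟩ := h1
    have h2 : kap E D x t = 0 := by
      refine Finset.prod_eq_zero (Finset.mem_univ i) ?_
      rw [Kap, if_neg]
      rw [qmap_norm]; exact hi
    rw [h2, zero_mul]
  · intro h; exact absurd (Finset.mem_univ _) h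

include E in
theorem exists_norm_eq (s : Z) : ∃ x : QI Z d, x.norm = s := by
  have h : ∀ i, ∃ y : QI (k i) d, y.norm = pr E i s := fun i =>
    norm_surj (fun r => Inert.nonsq (d := d) r) _
  choose y hy using h
  refine ⟨(eqA E d).symm y, pr_ext E fun i => ?_⟩
  rw [← qmap_norm, ← hy i, ← eqA_apply, Equiv.apply_symm_apply]

/-- `κ` is injective -/
theorem kap_injective {φ φ' : Zˣ → R}
    (h : ∀ x, ∑ t, kap E D x t * φ t = ∑ t, kap E D x t * φ' t) : φ = φ' := by
  funext s
  obtain ⟨x, hx⟩ := exists_norm_eq (d := d) E (s : Z)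
  rw [← sum_kap E D x φ s hx, h x, sum_kap E D x φ' s hx]

end

end

end Fermat.Agent.H29Z
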