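import Mathlib
import Fermat.Agent.H29W.Kir

set_option autoImplicit false
set_option linter.all false

/-! Reduction modulo `2`: the Kirillov model is `ker(sum)/constants` in functions on `ℙ¹`. -/

namespace Fermat.Agent.H29W

open QuadraticAlgebra Finset OnePoint

noncomputable section

variable {k : Type*} [Field k] [Fintype k] [DecidableEq k] {d : k}
  [Hd : Fact (∀ r : k, r ^ 2 ≠ d + 0 * r)] {R : Type*} [CommRing R] (ψ : AddChar k R) (qi : R)
  (ξ : MulChar (QuadraticAlgebra k d 0) R)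

omit Hd in
theorem ringChar_ne_two (hd : ∀ r : k, r ^ 2 ≠ d) : ringChar k ≠ 2 := by
  intro h
  have h2 := two_ne_of_nonsq hd
  apply h2
  have := ringChar.Nat.cast_ringChar (R := k)
  rw [h] at this
  exact_mod_cast this

omit Hd in
theorem card_sq (hd : ∀ r : k, r ^ 2 ≠ d) (m : k) : ((Finset.univ.filter fun x : k => x ^ 2 = m).card : ℤ) =
    quadraticChar k m + 1 := by
  have h := quadraticChar_card_sqrts (ringChar_ne_two hd) m
  rw [← h]
  congr 2
  ext x
  simp

theorem card_add_card {u : k} (hu : u ≠ 0) (a : k) :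
    ((fib d u).filter fun z => trace z = a).card +
      (Finset.univ.filter fun y : kˣ => (y : k) + u / y = a).card = 2 := by
  have h2 := two_ne_of_nonsq (hd_of_fact (d := d))
  have hdd := d_ne (hd_of_fact (d := d))
  have h1 : ((fib d u).filter fun z => trace z = a).card =
      (Finset.univ.filter fun x : k => x ^ 2 = (a ^ 2 / 4 - u) / d).card := by
    refine Finset.card_bij' (fun z _ => z.im) (fun x _ => ⟨a / 2, x⟩) ?_ ?_ ?_ ?_
    · intro z hz
      rw [Finset.mem_filter, mem_fib, trace_def, norm_def] at hz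
      rw [Finset.mem_filter]
      refine ⟨Finset.mem_univ _, ?_⟩
      obtain ⟨hz1, hz2⟩ := hz
      have : z.re = a / 2 := by
        field_simp
        linear_combination hz2
      rw [this] at hz1
      have h4 : (4 : k) = 2 * 2 := by norm_num
      rw [h4]
      field_simp
      field_simp at hz1
      linear_combination -hz1
    · intro x hx
      rw [Finset.mem_filter] at hx
      rw [Finset.mem_filter, mem_fib, trace_def, norm_def]
      have h4 : (4 : k) = 2 * 2 := by norm_num
      rw [h4] at hx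
      constructor
      · have := hx.2
        field_simp at this ⊢
        linear_combination -this
      · show 2 * (a / 2) + 0 * x = a
        field_simp; ring
    · intro z hz
      rw [Finset.mem_filter, mem_fib, trace_def] at hz
      ext
      · show a / 2 = z.re
        field_simp
        linear_combination -hz.2
      · rfl
    · intro x _; rfl
  have h3 : (Finset.univ.filter fun y : kˣ => (y : k) + u / y = a).card =
      (Finset.univ.filter fun x : k => x ^ 2 = a ^ 2 / 4 - u).card := by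
    refine Finset.card_bij (fun y _ => (y : k) - a / 2) ?_ ?_ ?_
    · intro y hy
      rw [Finset.mem_filter] at hy ⊢
      refine ⟨Finset.mem_univ _, ?_⟩
      have hy0 := y.ne_zero
      have := hy.2
      have h4 : (4 : k) = 2 * 2 := by norm_num
      rw [h4]
      field_simp at this ⊢
      linear_combination 4 * this
    · intro y _ y' _ h
      exact Units.ext (sub_left_injective h)
    · intro x hx
      rw [Finset.mem_filter] at hx
      have h4 : (4 : k) = 2 * 2 := by norm_num
      rw [h4] at hx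
      have h5 : x + a / 2 ≠ 0 := by
        intro h
        apply hu
        have h6 : x = -(a / 2) := eq_neg_of_add_eq_zero_left h
        have h7 := hx.2
        rw [h6] at h7
        field_simp at h7
        have h8 : (2 : k) ^ 2 * u = 0 := by linear_combination h7
        exact (mul_eq_zero.mp h8).resolve_left (pow_ne_zero 2 h2)
      refine ⟨Units.mk0 _ h5, ?_, ?_⟩
      · rw [Finset.mem_filter]
        refine ⟨Finset.mem_univ _, ?_⟩
        rw [Units.val_mk0]
        have h9 := hx.2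
        have h10 : u = (a / 2 - x) * (x + a / 2) := by
          have : a ^ 2 / (2 * 2) = (a / 2) ^ 2 := by field_simp
          rw [this] at h9
          linear_combination h9
        rw [h10, mul_div_cancel_right₀ _ h5]
        field_simp
        ring
      · rw [Units.val_mk0]; ring
  rw [h1, h3]
  have h5 := card_sq (hd_of_fact (d := d)) ((a ^ 2 / 4 - u) / d)
  have h6 := card_sq (hd_of_fact (d := d)) (a ^ 2 / 4 - u)
  have h7 : quadraticChar k ((a ^ 2 / 4 - u) / d) = -quadraticChar k (a ^ 2 / 4 - u) := by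
    have h8 : quadraticChar k d = -1 := by
      rw [quadraticChar_neg_one_iff_not_isSquare]
      rintro ⟨r, hr⟩
      exact hd_of_fact (d := d) r (by rw [hr]; ring)
    have h9 : quadraticChar k ((a ^ 2 / 4 - u) / d) * quadraticChar k d =
        quadraticChar k (a ^ 2 / 4 - u) := by
      rw [← map_mul, div_mul_cancel₀ _ hdd]
    rw [h8] at h9
    linear_combination -h9
  zify
  rw [h5, h6, h7]; ring

/-- the Kloosterman identity -/
theorem sum_fib_psi (hψ : ∀ a ≠ 0, ∑ x, ψ (a * x) = 0) {u : k} (hu : u ≠ 0) :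
    ∑ z ∈ fib d u, ψ (-trace z) = -∑ y : kˣ, ψ (-(y + u / y)) := by
  rw [eq_neg_iff_add_eq_zero]
  rw [← Finset.sum_fiberwise_of_maps_to (s := fib d u) (t := Finset.univ) (g := fun z => trace z)
    (fun _ _ => Finset.mem_univ _), ← Finset.sum_fiberwise_of_maps_to (s := Finset.univ)
    (t := Finset.univ) (g := fun y : kˣ => (y : k) + u / y) (fun _ _ => Finset.mem_univ _),
    ← Finset.sum_add_distrib]
  have h1 : ∀ a : k, (∑ z ∈ (fib d u).filter (fun z => trace z = a), ψ (-trace z) +
      ∑ y ∈ Finset.univ.filter (fun y : kˣ => (y : k) + u / y = a), ψ (-(y + u / y))) =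
      2 * ψ (-1 * a) := by
    intro a
    rw [Finset.sum_congr rfl (g := fun _ => ψ (-1 * a)), Finset.sum_const,
      Finset.sum_congr (s₂ := Finset.univ.filter (fun y : kˣ => (y : k) + u / y = a)) rfl
        (g := fun _ => ψ (-1 * a)), Finset.sum_const, ← add_smul, card_add_card hu a,
      nsmul_eq_mul, Nat.cast_ofNat]
    · intro y hy
      rw [(Finset.mem_filter.mp hy).2, neg_one_mul]
    · intro y hy
      rw [(Finset.mem_filter.mp hy).2, neg_one_mul]
  rw [Finset.sum_congr rfl (fun a _ => h1 a), ← Finset.mul_sum,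
    hψ (-1) (neg_ne_zero.mpr one_ne_zero), mul_zero]


/-! ### the map to functions on the projective line -/

variable {V : Type*} [AddCommGroup V] [Module R V]

/-- `W → Fun(ℙ¹)` -/
def Emap (φ : kˣ → V) : OnePoint k → V := fun P =>
  P.elim 0 fun x => qi • ∑ t : kˣ, ψ (-(x * t)) • φ t

/-- the action of a matrix on `Fun(kˣ, V)` -/
def Wact (g : Matrix (Fin 2) (Fin 2) k) (φ : kˣ → V) : kˣ → V := fun s =>
  ∑ t : kˣ, Mf ψ qi ξ (g 0 0) (g 0 1) (g 1 0) (g 1 1) s t • φ t

variable {ψ qi ξ}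

theorem Emap_infty (φ : kˣ → V) : Emap ψ qi φ ∞ = 0 := rfl

theorem Emap_coe (φ : kˣ → V) (x : k) : Emap ψ qi φ (x : OnePoint k) =
    qi • ∑ t : kˣ, ψ (-(x * t)) • φ t := rfl

theorem Wact_mul (hq : (Fintype.card k : R) * qi = 1) (hψ : ∀ a ≠ 0, ∑ x, ψ (a * x) = 0)
    (h1 : ∀ a : k, a ≠ 0 → ξ (algebraMap k _ a) = 1) (h2 : ∑ u ∈ fib d (1 : k), ξ u = 0)
    {g g' : Matrix (Fin 2) (Fin 2) k} (hg : g.det ≠ 0) (hg' : g'.det ≠ 0) (φ : kˣ → V) :
    Wact ψ qi ξ (g * g') φ = Wact ψ qi ξ g (Wact ψ qi ξ g' φ) := by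
  funext s
  simp only [Wact, Finset.smul_sum, smul_smul]
  rw [Finset.sum_comm]
  refine Finset.sum_congr rfl fun r _ => ?_
  rw [← Finset.sum_smul]
  congr 1
  rw [Mf_mul hq hψ h1 h2 (by rw [← Matrix.det_fin_two]; exact hg)
    (by rw [← Matrix.det_fin_two]; exact hg') s.ne_zero r.ne_zero]
  simp only [Matrix.mul_apply, Fin.sum_univ_two]

theorem sum_units_psi (hψ : ∀ a ≠ 0, ∑ x, ψ (a * x) = 0) {a : k} (ha : a ≠ 0) :
    ∑ t : kˣ, ψ (a * t) = -1 := by
  have h := hψ a ha
  rw [← Finset.add_sum_erase _ _ (Finset.mem_univ (0 : k)), mul_zero, AddChar.map_zero_eq_one] at h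
  have h3 : ∑ t : kˣ, ψ (a * t) = ∑ x ∈ Finset.univ.erase (0 : k), ψ (a * x) := by
    refine Finset.sum_bij (fun t _ => (t : k)) ?_ ?_ ?_ ?_
    · intro t _; exact Finset.mem_erase.mpr ⟨t.ne_zero, Finset.mem_univ _⟩
    · intro a _ b _ h; exact Units.ext h
    · intro b hb
      exact ⟨Units.mk0 b (Finset.ne_of_mem_erase hb), Finset.mem_univ _, rfl⟩
    · intro _ _; rfl
  rw [h3]
  linear_combination h

/-- sum over units of a character at an arbitrary point -/
theorem sum_units_psi' (hψ : ∀ a ≠ 0, ∑ x, ψ (a * x) = 0) (a : k) :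
    ∑ t : kˣ, ψ (a * t) = if a = 0 then (Fintype.card k : R) - 1 else -1 := by
  by_cases ha : a = 0
  · rw [if_pos ha, ha]
    simp only [zero_mul, AddChar.map_zero_eq_one, Finset.sum_const, Finset.card_univ, nsmul_eq_mul,
      mul_one]
    rw [Fintype.card_units, Nat.cast_sub Fintype.card_pos.nat_succ_le]
    push_cast; rfl
  · rw [if_neg ha, sum_units_psi hψ ha]

variable (ψ qi ξ V) in
/-- equivariance modulo constants -/
def Good (γ : GL (Fin 2) k) : Prop := ∀ φ : kˣ → V, ∃ v : V, ∀ P : OnePoint k,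
  Emap ψ qi (Wact ψ qi ξ γ.1 φ) P = Emap ψ qi φ (γ⁻¹ • P) + v

theorem Good.mul (hq : (Fintype.card k : R) * qi = 1) (hψ : ∀ a ≠ 0, ∑ x, ψ (a * x) = 0)
    (h1 : ∀ a : k, a ≠ 0 → ξ (algebraMap k _ a) = 1) (h2 : ∑ u ∈ fib d (1 : k), ξ u = 0)
    {γ γ' : GL (Fin 2) k} (h : Good ψ qi ξ V γ) (h' : Good ψ qi ξ V γ') :
    Good ψ qi ξ V (γ * γ') := by
  intro φ
  obtain ⟨v', hv'⟩ := h' φ
  obtain ⟨v, hv⟩ := h (Wact ψ qi ξ γ'.1 φ)
  refine ⟨v' + v, fun P => ?_⟩
  have e1 : (γ * γ').1 = γ.1 * γ'.1 := rfl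
  rw [e1, Wact_mul hq hψ h1 h2 γ.det_ne_zero γ'.det_ne_zero, hv, hv', mul_inv_rev, mul_smul,
    add_assoc]

theorem good_upper {γ : GL (Fin 2) k} (hc : γ 1 0 = 0) : Good ψ qi ξ V γ := by
  intro φ
  refine ⟨0, fun P => ?_⟩
  rw [add_zero]
  have hdet : γ 0 0 * γ 1 1 - γ 0 1 * γ 1 0 ≠ 0 := by
    rw [← Matrix.det_fin_two]; exact γ.det_ne_zero
  rw [hc, mul_zero, sub_zero] at hdet
  have ha := left_ne_zero_of_mul hdet
  have he := right_ne_zero_of_mul hdet
  induction P using OnePoint.rec with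
  | infty =>
    have h3 : γ⁻¹ • (∞ : OnePoint k) = ∞ := by
      rw [inv_smul_eq_iff, smul_infty_eq_ite, if_pos hc]
    rw [h3, Emap_infty, Emap_infty]
  | coe x =>
    have h3 : γ⁻¹ • (x : OnePoint k) = (((γ 1 1 * x - γ 0 1) / γ 0 0 : k) : OnePoint k) := by
      rw [inv_smul_eq_iff, smul_some_eq_ite, hc, zero_mul, zero_add, if_neg he]
      have e2 : γ 0 0 * ((γ 1 1 * x - γ 0 1) / γ 0 0) + γ 0 1 = γ 1 1 * x := by
        field_simp; ring
      have e3 : (γ 0 0 : k) * ((γ 1 1 * x - γ 0 1) / γ 0 0) + γ 0 1 = γ 1 1 * x := e2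
      rw [e3, mul_comm, mul_div_cancel_right₀ _ he]
    rw [h3, Emap_coe, Emap_coe]
    congr 1
    let c : kˣ := Units.mk0 (γ 0 0 / γ 1 1) (div_ne_zero ha he)
    have h4 : ∀ s : kˣ, Wact ψ qi ξ γ.1 φ s = ψ (γ 0 1 / γ 1 1 * s) • φ (c * s) := by
      intro s
      simp only [Wact]
      have hc' : γ.1 1 0 = 0 := hc
      rw [Finset.sum_eq_single (c * s)]
      · rw [hc', Mf_zero, if_pos (by simp [c])]
      · intro t _ ht
        rw [hc', Mf_zero, if_neg, zero_smul]
        intro h5
        exact ht (Units.ext (by rw [h5]; simp [c]))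
      · intro h; exact absurd (Finset.mem_univ _) h
    simp_rw [h4, smul_smul, ← AddChar.map_add_eq_mul]
    rw [← Equiv.sum_comp (Equiv.mulLeft c)
      (fun t : kˣ => ψ (-((γ 1 1 * x - γ 0 1) / γ 0 0 * t)) • φ t)]
    refine Finset.sum_congr rfl fun s _ => ?_
    rw [Equiv.coe_mulLeft]
    congr 2
    simp only [c, Units.val_mul, Units.val_mk0]
    field_simp
    ring

end

end Fermat.Agent.H29W
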