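import Mathlib
import Fermat.Agent.H29W.Red

set_option autoImplicit false
set_option linter.all false

/-! Reduction modulo `2`: the Kirillov model is `ker(sum)/constants` in functions on `ℙ¹`. -/

namespace Fermat.Agent.H29W

open QuadraticAlgebra Finset OnePoint

noncomputable section

variable {k : Type*} [Field k] [Fintype k] [DecidableEq k] {d : k}
  [Hd : Fact (∀ r : k, r ^ 2 ≠ d + 0 * r)] {R : Type*} [CommRing R] {ψ : AddChar k R} {qi : R}
  {V : Type*} [AddCommGroup V] [Module R V]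

/-- the Weyl element -/
def wG (k : Type*) [Field k] : GL (Fin 2) k :=
  Matrix.GeneralLinearGroup.mkOfDetNeZero !![0, -1; 1, 0] (by simp)

/-- parity of `q` -/
theorem two_dvd_card_add_one (hd : ∀ r : k, r ^ 2 ≠ d) : ∃ m, Fintype.card k + 1 = 2 * m := by
  have := card_odd hd
  exact ⟨(Fintype.card k + 1) / 2, by omega⟩

theorem card_eq_neg_one (hd : ∀ r : k, r ^ 2 ≠ d) (h2 : (2 : R) = 0) :
    (Fintype.card k : R) = 1 := by
  obtain ⟨m, hm⟩ := two_dvd_card_add_one hd
  have h : (Fintype.card k : R) + 1 = 2 * m := by exact_mod_cast congrArg (Nat.cast (R := R)) hm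
  rw [h2, zero_mul] at h
  linear_combination h - h2

theorem qi_eq_one (hd : ∀ r : k, r ^ 2 ≠ d) (h2 : (2 : R) = 0)
    (hq : (Fintype.card k : R) * qi = 1) : qi = 1 := by
  rw [card_eq_neg_one hd h2, one_mul] at hq
  exact hq

theorem Wact_w (hψ : ∀ a ≠ 0, ∑ x, ψ (a * x) = 0) (φ : kˣ → V) (s : kˣ) :
    Wact ψ qi (1 : MulChar (QuadraticAlgebra k d 0) R) (wG k).1 φ s =
      qi • ∑ t : kˣ, (∑ y : kˣ, ψ (-(s * y + t / y))) • φ t := by
  have e00 : (wG k).1 0 0 = 0 := rfl
  have e01 : (wG k).1 0 1 = -1 := rfl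
  have e10 : (wG k).1 1 0 = 1 := rfl
  have e11 : (wG k).1 1 1 = 0 := rfl
  simp only [Wact, e00, e01, e10, e11]
  rw [Finset.smul_sum]
  refine Finset.sum_congr rfl fun t _ => ?_
  rw [Mf_ne _ _ one_ne_zero, smul_smul]
  congr 1
  have h1 : (s : k) * t * (0 * 0 - -1 * 1) = s * t := by ring
  have hst : (s : k) * t ≠ 0 := mul_ne_zero s.ne_zero t.ne_zero
  rw [h1]
  have h2 : ∑ z ∈ fib d ((s : k) * t), ψ (-((1 : k)⁻¹ * trace z)) *
      (1 : MulChar (QuadraticAlgebra k d 0) R) z = ∑ z ∈ fib d ((s : k) * t), ψ (-trace z) := by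
    refine Finset.sum_congr rfl fun z hz => ?_
    have hz0 : z ≠ 0 := by
      rintro rfl
      rw [mem_fib, QuadraticAlgebra.norm_zero] at hz
      exact hst hz.symm
    rw [MulChar.one_apply (isUnit_iff_ne_zero.mpr hz0), mul_one, inv_one, one_mul]
  rw [h2, sum_fib_psi ψ hψ hst]
  have h3 : ∑ y : kˣ, ψ (-(y + (s : k) * t / y)) = ∑ y : kˣ, ψ (-(s * y + t / y)) := by
    rw [← Equiv.sum_comp (Equiv.mulLeft s)]
    refine Finset.sum_congr rfl fun y _ => ?_
    rw [Equiv.coe_mulLeft]
    congr 2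
    rw [Units.val_mul]
    have hs := s.ne_zero
    have hy := y.ne_zero
    field_simp
  rw [h3]
  have h4 : (1 : k)⁻¹ * (0 * s + 0 * t) = 0 := by ring
  rw [h4, AddChar.map_zero_eq_one]
  ring

theorem good_w (h2 : (2 : R) = 0) (hq : (Fintype.card k : R) * qi = 1)
    (hψ : ∀ a ≠ 0, ∑ x, ψ (a * x) = 0) :
    Good ψ qi (1 : MulChar (QuadraticAlgebra k d 0) R) V (wG k) := by
  intro φ
  have hqi := qi_eq_one (hd_of_fact (d := d)) h2 hq
  have hcard : (Fintype.card k : R) = 1 := card_eq_neg_one (hd_of_fact (d := d)) h2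
  refine ⟨∑ t : kˣ, φ t, fun P => ?_⟩
  have htwo : ∀ v : V, v + v = 0 := by
    intro v
    rw [← two_smul R v, h2, zero_smul]
  -- value at a finite point
  have key : ∀ x : k, Emap ψ qi (Wact ψ qi (1 : MulChar (QuadraticAlgebra k d 0) R) (wG k).1 φ)
      (x : OnePoint k) = ∑ t : kˣ, ((if x = 0 then 0 else ψ (t / x)) + 1) • φ t := by
    intro x
    rw [Emap_coe, hqi, one_smul]
    have h3 := Wact_w (d := d) (qi := qi) hψ φ
    rw [hqi] at h3
    simp_rw [h3, one_smul, Finset.smul_sum, smul_smul]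
    rw [Finset.sum_comm]
    refine Finset.sum_congr rfl fun t _ => ?_
    rw [← Finset.sum_smul]
    congr 1
    simp_rw [Finset.mul_sum]
    rw [Finset.sum_comm]
    have h4 : ∀ y : kˣ, ∑ s : kˣ, ψ (-(x * s)) * ψ (-(s * y + t / y)) =
        ψ (-(t / y)) * (if x = -y then (Fintype.card k : R) - 1 else -1) := by
      intro y
      have h5 := sum_units_psi' (ψ := ψ) hψ (-(x + y))
      have h6 : (-(x + (y : k)) = 0) = (x = -y) := by
        rw [neg_eq_zero, add_eq_zero_iff_eq_neg]
      simp only [h6] at h5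
      rw [← h5, Finset.mul_sum]
      refine Finset.sum_congr rfl fun s _ => ?_
      rw [← AddChar.map_add_eq_mul, ← AddChar.map_add_eq_mul]
      congr 1; ring
    rw [Finset.sum_congr rfl fun y _ => h4 y, hcard, sub_self]
    have h7 : ∀ y : kˣ, ψ (-(t / y)) * (if x = -y then (0 : R) else -1) =
        (if x = -y then ψ (-(t / y)) else 0) - ψ (-(t / y)) := by
      intro y
      split_ifs <;> ring
    rw [Finset.sum_congr rfl fun y _ => h7 y, Finset.sum_sub_distrib]
    have h8 : ∑ y : kˣ, ψ (-((t : k) / y)) = -1 := by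
      have h9 := sum_units_psi (ψ := ψ) hψ (neg_ne_zero.mpr t.ne_zero)
      rw [← h9, ← Equiv.sum_comp (Equiv.inv kˣ)]
      refine Finset.sum_congr rfl fun y _ => ?_
      congr 1
      simp [div_eq_mul_inv]
    rw [h8, sub_neg_eq_add]
    congr 1
    by_cases hx : x = 0
    · rw [if_pos hx]
      refine Finset.sum_eq_zero fun y _ => ?_
      rw [if_neg]
      intro h; rw [hx] at h
      exact y.ne_zero (neg_eq_zero.mp h.symm)
    · rw [if_neg hx, Finset.sum_eq_single (-(Units.mk0 x hx))]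
      · simp only [Units.val_neg, Units.val_mk0, neg_neg, if_true]
        congr 1
        rw [div_neg, neg_neg]
      · intro y _ hy
        rw [if_neg]
        intro h
        apply hy
        apply Units.ext
        rw [Units.val_neg, Units.val_mk0, h, neg_neg]
      · intro h; exact absurd (Finset.mem_univ _) h
  have hw : ∀ P Q : OnePoint k, wG k • Q = P → (wG k)⁻¹ • P = Q := by
    intro P Q h; rw [← h, inv_smul_smul]
  induction P using OnePoint.rec with
  | infty =>
    have h3 : (wG k)⁻¹ • (∞ : OnePoint k) = ((0 : k) : OnePoint k) := by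
      apply hw
      rw [smul_some_eq_ite, if_pos]
      show (1 : k) * 0 + 0 = 0
      ring
    rw [h3, Emap_infty, Emap_coe, hqi, one_smul]
    simp only [zero_mul, neg_zero, AddChar.map_zero_eq_one, one_smul]
    rw [htwo]
  | coe x =>
    rw [key]
    by_cases hx : x = 0
    · subst hx
      have h3 : (wG k)⁻¹ • ((0 : k) : OnePoint k) = ∞ := by
        apply hw
        rw [smul_infty_eq_ite, if_neg]
        · show ((0 / 1 : k) : OnePoint k) = _
          rw [zero_div]
        · show ¬ (1 : k) = 0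
          exact one_ne_zero
      rw [h3, Emap_infty, zero_add]
      simp only [if_true, zero_add, one_smul]
    · have h3 : (wG k)⁻¹ • (x : OnePoint k) = ((-x⁻¹ : k) : OnePoint k) := by
        apply hw
        rw [smul_some_eq_ite, if_neg]
        · show (((0 * (-x⁻¹) + -1) / (1 * (-x⁻¹) + 0) : k) : OnePoint k) = _
          congr 1
          field_simp
          ring
        · show ¬ (1 : k) * (-x⁻¹) + 0 = 0
          rw [one_mul, add_zero, neg_eq_zero]
          exact inv_ne_zero hx
      rw [h3, Emap_coe, hqi, one_smul]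
      simp only [if_neg hx, add_smul, one_smul]
      rw [Finset.sum_add_distrib]
      congr 1
      refine Finset.sum_congr rfl fun t _ => ?_
      congr 2
      field_simp

theorem good_all (h2 : (2 : R) = 0) (hq : (Fintype.card k : R) * qi = 1)
    (hψ : ∀ a ≠ 0, ∑ x, ψ (a * x) = 0) (γ : GL (Fin 2) k) :
    Good ψ qi (1 : MulChar (QuadraticAlgebra k d 0) R) V γ := by
  have hq1 : ∀ a : k, a ≠ 0 → (1 : MulChar (QuadraticAlgebra k d 0) R) (algebraMap k _ a) = 1 := by
    intro a ha
    exact MulChar.one_apply ((isUnit_iff_ne_zero.mpr ha).map (algebraMap k _))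
  have hq2 : ∑ u ∈ fib d (1 : k), (1 : MulChar (QuadraticAlgebra k d 0) R) u = 0 := by
    rw [Finset.sum_congr rfl (g := fun _ => (1 : R)), Finset.sum_const,
      card_fib (one_ne_zero (α := k)), nsmul_eq_mul, mul_one]
    · push_cast
      rw [card_eq_neg_one (hd_of_fact (d := d)) h2]
      linear_combination h2
    · intro z hz
      refine MulChar.one_apply (isUnit_iff_ne_zero.mpr ?_)
      rintro rfl
      rw [mem_fib, QuadraticAlgebra.norm_zero] at hz
      exact zero_ne_one hz
  by_cases hc : γ 1 0 = 0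
  · exact good_upper hc
  · have hδ : γ.1.det ≠ 0 := γ.det_ne_zero
    let U1 : GL (Fin 2) k := Matrix.GeneralLinearGroup.mkOfDetNeZero
      !![1, γ 0 0 / γ 1 0; 0, 1] (by simp)
    let U2 : GL (Fin 2) k := Matrix.GeneralLinearGroup.mkOfDetNeZero
      !![γ 1 0, γ 1 1; 0, γ.1.det / γ 1 0] (by
        rw [Matrix.det_fin_two_of, mul_zero, sub_zero]
        exact mul_ne_zero hc (div_ne_zero hδ hc))
    have h : γ = U1 * (wG k * U2) := by
      apply Units.ext
      have h3 : (U1 * (wG k * U2)).1 = !![1, γ 0 0 / γ 1 0; 0, 1] * (!![0, -1; 1, 0] *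
        !![γ 1 0, γ 1 1; 0, γ.1.det / γ 1 0]) := rfl
      rw [h3, Matrix.mul_fin_two, Matrix.mul_fin_two]
      ext i j
      fin_cases i <;> fin_cases j
      · show γ.1 0 0 = _
        simp; field_simp
      · show γ.1 0 1 = _
        simp [Matrix.det_fin_two]; field_simp; ring
      · show γ.1 1 0 = _
        simp
      · show γ.1 1 1 = _
        simp
    rw [h]
    exact (good_upper (γ := U1) rfl).mul hq hψ hq1 hq2
      ((good_w h2 hq hψ).mul hq hψ hq1 hq2 (good_upper (γ := U2) rfl))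

/-! ### kernel and image -/

theorem sum_Emap (hψ : ∀ a ≠ 0, ∑ x, ψ (a * x) = 0) (φ : kˣ → V) :
    ∑ x : k, Emap ψ qi φ (x : OnePoint k) = 0 := by
  simp_rw [Emap_coe]
  rw [← Finset.smul_sum, Finset.sum_comm]
  have : ∀ t : kˣ, ∑ x : k, ψ (-(x * t)) • φ t = 0 := by
    intro t
    rw [← Finset.sum_smul]
    have h := hψ (-t) (neg_ne_zero.mpr t.ne_zero)
    have h3 : ∑ x : k, ψ (-(x * t)) = ∑ x : k, ψ (-t * x) := by
      refine Finset.sum_congr rfl fun x _ => ?_
      congr 1; ring
    rw [h3, h, zero_smul]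
  rw [Finset.sum_congr rfl fun t _ => this t, Finset.sum_const_zero, smul_zero]

/-- Fourier inversion -/
theorem inversion (hq : (Fintype.card k : R) * qi = 1) (hψ : ∀ a ≠ 0, ∑ x, ψ (a * x) = 0)
    (φ : kˣ → V) (s : kˣ) : ∑ x : k, ψ (x * s) • Emap ψ qi φ (x : OnePoint k) = φ s := by
  simp_rw [Emap_coe, Finset.smul_sum, smul_smul]
  rw [Finset.sum_comm, Finset.sum_eq_single s]
  · rw [← Finset.sum_smul]
    have : ∀ x : k, ψ (x * s) * (qi * ψ (-(x * s))) = qi := by
      intro x
      have h : ψ (x * s) * ψ (-(x * s)) = 1 := by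
        rw [← AddChar.map_add_eq_mul, add_neg_cancel, AddChar.map_zero_eq_one]
      linear_combination qi * h
    rw [Finset.sum_congr rfl fun x _ => this x, Finset.sum_const, Finset.card_univ, nsmul_eq_mul,
      hq, one_smul]
  · intro t _ ht
    rw [← Finset.sum_smul]
    have h3 : ∑ x : k, ψ (x * s) * (qi * ψ (-(x * t))) = qi * ∑ x : k, ψ ((s - t) * x) := by
      rw [Finset.mul_sum]
      refine Finset.sum_congr rfl fun x _ => ?_
      rw [mul_left_comm, ← AddChar.map_add_eq_mul]
      congr 2; ring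
    rw [h3, hψ, mul_zero, zero_smul]
    intro h
    exact ht (Units.ext (sub_eq_zero.mp h)).symm
  · intro h; exact absurd (Finset.mem_univ _) h

/-- injectivity modulo constants -/
theorem Emap_injective (hq : (Fintype.card k : R) * qi = 1) (hψ : ∀ a ≠ 0, ∑ x, ψ (a * x) = 0)
    {φ : kˣ → V} {v : V} (h : ∀ P, Emap ψ qi φ P = v) : φ = 0 := by
  have hv : v = 0 := by rw [← h ∞, Emap_infty]
  funext s
  rw [← inversion hq hψ φ s, Pi.zero_apply]
  refine Finset.sum_eq_zero fun x _ => ?_
  rw [h, hv, smul_zero]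

/-- surjectivity onto the kernel of the sum -/
theorem Emap_surjective (hd : ∀ r : k, r ^ 2 ≠ d) (h2 : (2 : R) = 0)
    (hq : (Fintype.card k : R) * qi = 1)
    (hψ : ∀ a ≠ 0, ∑ x, ψ (a * x) = 0) {f : OnePoint k → V}
    (hf : f ∞ + ∑ x : k, f (x : OnePoint k) = 0) :
    ∃ φ : kˣ → V, ∀ P, Emap ψ qi φ P = f P - f ∞ := by
  have hsum : ∑ y : k, (f (y : OnePoint k) - f ∞) = 0 := by
    rw [Finset.sum_sub_distrib, Finset.sum_const, Finset.card_univ]
    have h3 : (Fintype.card k : ℕ) • f (∞ : OnePoint k) = f ∞ := by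
      rw [← Nat.cast_smul_eq_nsmul R, card_eq_neg_one hd h2, one_smul]
    have h4 : f (∞ : OnePoint k) + f ∞ = 0 := by rw [← two_smul R, h2, zero_smul]
    rw [h3, eq_neg_of_add_eq_zero_right hf, ← neg_add', h4, neg_zero]
  refine ⟨fun s => ∑ y : k, ψ (y * s) • (f (y : OnePoint k) - f ∞), fun P => ?_⟩
  induction P using OnePoint.rec with
  | infty => rw [Emap_infty, sub_self]
  | coe x =>
    rw [Emap_coe]
    simp_rw [Finset.smul_sum, smul_smul]
    rw [Finset.sum_comm]
    have h3 : ∀ y : k, ∑ s : kˣ, (qi * (ψ (-(x * s)) * ψ (y * s))) • (f (y : OnePoint k) - f ∞) =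
        (if y = x then f (x : OnePoint k) - f ∞ else 0) - qi • (f (y : OnePoint k) - f ∞) := by
      intro y
      rw [← Finset.sum_smul, ← Finset.mul_sum]
      have h4 : ∑ s : kˣ, ψ (-(x * s)) * ψ (y * s) = ∑ s : kˣ, ψ ((y - x) * s) := by
        refine Finset.sum_congr rfl fun s _ => ?_
        rw [← AddChar.map_add_eq_mul]
        congr 1; ring
      rw [h4, sum_units_psi' hψ]
      by_cases h : y = x
      · subst h
        rw [if_pos (sub_self _), if_pos rfl, mul_sub, mul_comm qi, hq, mul_one, sub_smul, one_smul]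
      · rw [if_neg (sub_ne_zero.mpr h), if_neg h, mul_neg, mul_one, neg_smul, zero_sub]
    rw [Finset.sum_congr rfl fun y _ => h3 y, Finset.sum_sub_distrib, ← Finset.smul_sum, hsum,
      smul_zero, sub_zero, Finset.sum_ite_eq' Finset.univ, if_pos (Finset.mem_univ _)]

end

end Fermat.Agent.H29W
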