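import Mathlib
import Fermat.Agent.H29W.GlobalZ
import Fermat.Agent.H29W.Red2

set_option autoImplicit false
set_option linter.all false
set_option maxHeartbeats 400000

/-! Splitting off one prime in the Kirillov model. -/

namespace Fermat.Agent.H29Z

open Fermat.Agent.H29W

open QuadraticAlgebra Finset

noncomputable section

variable {ι κ : Type*} [Fintype ι] [DecidableEq ι] [Fintype κ] [DecidableEq κ] (h : Option κ ≃ ι)
  {k : ι → Type*} [∀ i, Field (k i)]
  [∀ i, Fintype (k i)] [∀ i, DecidableEq (k i)] {Z Z' : Type*} [CommRing Z] [Fintype Z]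
  [DecidableEq Z] [CommRing Z'] [Fintype Z'] [DecidableEq Z'] (E : Z ≃+* ((i : ι) → k i))
  (E' : Z' ≃+* ((j : κ) → k (h (some j)))) {d : ℤ} [∀ i, Inert (k i) d] {R : Type*} [CommRing R]
  (D : (i : ι) → LData (k i) d R)

/-- the projection `Z → Z'` -/
def resZ : Z →+* Z' :=
  (E'.symm : ((j : κ) → k (h (some j))) →+* Z').comp
    ((Pi.ringHom fun j : κ => Pi.evalRingHom k (h (some j))).comp
      (E : Z →+* ((i : ι) → k i)))

theorem pr_resZ (j : κ) (z : Z) : pr E' j (resZ h E E' z) = pr E (h (some j)) z := by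
  rw [pr_apply, pr_apply]
  show E' (E'.symm _) j = _
  rw [RingEquiv.apply_symm_apply]
  rfl

theorem bigM_split (g : Matrix (Fin 2) (Fin 2) Z) (s t : Zˣ) :
    bigM E D g s t =
      Mf (D (h none)).ψ (D (h none)).qi (D (h none)).ξ (pr E (h none) (g 0 0))
        (pr E (h none) (g 0 1)) (pr E (h none) (g 1 0)) (pr E (h none) (g 1 1))
        (pr E (h none) s) (pr E (h none) t) *
      bigM E' (fun j => D (h (some j))) (g.map (resZ h E E'))
        (Units.map (resZ h E E' : Z →* Z') s) (Units.map (resZ h E E' : Z →* Z') t) := by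
  rw [bigM, ← Equiv.prod_comp h, Fintype.prod_option]
  congr 1
  rw [bigM]
  refine Finset.prod_congr rfl fun j _ => ?_
  simp only [Matrix.map_apply, Units.coe_map, MonoidHom.coe_coe, pr_resZ]

theorem split_bijective : Function.Bijective
    (fun s : Zˣ => ((Units.map (pr E (h none) : Z →* k (h none)) s : (k (h none))ˣ),
      (Units.map (resZ h E E' : Z →* Z') s : Z'ˣ))) := by
  constructor
  · intro s t hst
    apply Units.ext
    apply pr_ext E
    intro i
    obtain ⟨o, rfl⟩ := h.surjective i
    cases o with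
    | none =>
      exact congrArg (fun u : (k (h none))ˣ × Z'ˣ => (u.1 : k (h none))) hst
    | some j =>
      rw [← pr_resZ h E E', ← pr_resZ h E E']
      exact congrArg (fun u : (k (h none))ˣ × Z'ˣ => pr E' j (u.2 : Z')) hst
  · rintro ⟨a, b⟩
    let F : (i : ι) → (k i)ˣ := Equiv.piCongrLeft (fun i => (k i)ˣ) h
      ((Equiv.piOptionEquivProd (β := fun o => (k (h o))ˣ)).symm (a, eqU E' b))
    have hF : ∀ o, F (h o) =
        (Equiv.piOptionEquivProd (β := fun o => (k (h o))ˣ)).symm (a, eqU E' b) o := fun o =>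
      Equiv.piCongrLeft_apply_apply _ _ _ _
    have hs : ∀ i, pr E i (((eqU E).symm F : Zˣ) : Z) = F i := by
      intro i
      rw [← eqU_apply, Equiv.apply_symm_apply]
    refine ⟨(eqU E).symm F, ?_⟩
    apply Prod.ext
    · apply Units.ext
      show pr E (h none) _ = _
      rw [hs, hF]
      rfl
    · apply Units.ext
      apply pr_ext E'
      intro j
      show pr E' j (resZ h E E' _) = _
      rw [pr_resZ, hs, hF]
      rfl

/-- splitting the units -/
def splitU : Zˣ ≃ (k (h none))ˣ × Z'ˣ := Equiv.ofBijective _ (split_bijective h E E')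

theorem splitU_apply (s : Zˣ) : splitU h E E' s =
    ((Units.map (pr E (h none) : Z →* k (h none)) s : (k (h none))ˣ),
      (Units.map (resZ h E E' : Z →* Z') s : Z'ˣ)) := rfl

/-- the curried form of a function on `Zˣ` -/
def curryU : (Zˣ → R) ≃ₗ[R] ((k (h none))ˣ → (Z'ˣ → R)) where
  toFun φ s0 s' := φ ((splitU h E E').symm (s0, s'))
  invFun F s := F (splitU h E E' s).1 (splitU h E E' s).2
  map_add' _ _ := rfl
  map_smul' _ _ := rfl
  left_inv φ := by
    funext s
    show φ ((splitU h E E').symm ((splitU h E E' s).1, (splitU h E E' s).2)) = φ s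
    rw [Prod.mk.eta, Equiv.symm_apply_apply]
  right_inv F := by
    funext s0 s'
    show F (splitU h E E' ((splitU h E E').symm (s0, s'))).1 _ = _
    rw [Equiv.apply_symm_apply]

theorem curryU_apply (φ : Zˣ → R) (s0 : (k (h none))ˣ) (s' : Z'ˣ) :
    curryU h E E' φ s0 s' = φ ((splitU h E E').symm (s0, s')) := rfl

/-- equivariance of currying -/
theorem curryU_kir (g : GL (Fin 2) Z) (φ : Zˣ → R) :
    curryU h E E' (kir E D g φ) =
      Wact (D (h none)).ψ (D (h none)).qi (D (h none)).ξ (g.1.map (pr E (h none)))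
        (fun t0 => kir E' (fun j => D (h (some j)))
          (Matrix.GeneralLinearGroup.map (resZ h E E') g) (curryU h E E' φ t0)) := by
  funext s0 s'
  rw [curryU_apply, kir_apply, ← Equiv.sum_comp (splitU h E E').symm, Fintype.sum_prod_type]
  simp only [Wact, Finset.sum_apply, Pi.smul_apply, smul_eq_mul]
  refine Finset.sum_congr rfl fun t0 _ => ?_
  rw [kir_apply, Finset.mul_sum]
  refine Finset.sum_congr rfl fun t' _ => ?_
  rw [bigM_split h E E']
  have e1 : ∀ (a : (k (h none))ˣ) (b : Z'ˣ),
      Units.map (pr E (h none) : Z →* k (h none)) ((splitU h E E').symm (a, b)) = a := by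
    intro a b
    have := congrArg Prod.fst ((splitU h E E').apply_symm_apply (a, b))
    exact this
  have e2 : ∀ (a : (k (h none))ˣ) (b : Z'ˣ),
      Units.map (resZ h E E' : Z →* Z') ((splitU h E E').symm (a, b)) = b := by
    intro a b
    have := congrArg Prod.snd ((splitU h E E').apply_symm_apply (a, b))
    exact this
  have e3 : ∀ (a : (k (h none))ˣ) (b : Z'ˣ),
      pr E (h none) (((splitU h E E').symm (a, b) : Zˣ) : Z) = a := fun a b =>
    congrArg Units.val (e1 a b)
  rw [e2, e2, e3, e3, curryU_apply, mul_assoc]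
  rfl

end

end Fermat.Agent.H29Z
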