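import Mathlib
import Fermat.Agent.H29W.Split

set_option autoImplicit false
set_option linter.all false
set_option maxHeartbeats 400000

/-! Reduction modulo `2`, with coefficients in the Kirillov model of the other primes. -/

namespace Fermat.Agent.H29Z

open Fermat.Agent.H29W

open QuadraticAlgebra Finset
open OnePoint (infty)
local notation "∞" => OnePoint.infty

noncomputable section

section

variable {k : Type*} [Field k] [Fintype k] [DecidableEq k] {R : Type*} [CommRing R]
  {ψ : AddChar k R} {qi : R} {V V' : Type*} [AddCommGroup V] [Module R V] [AddCommGroup V']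
  [Module R V']

theorem Emap_comp (T : V →ₗ[R] V') (φ : kˣ → V) (P : OnePoint k) :
    Emap ψ qi (fun t => T (φ t)) P = T (Emap ψ qi φ P) := by
  induction P using OnePoint.rec with
  | infty => rw [Emap_infty, Emap_infty, map_zero]
  | coe x =>
    rw [Emap_coe, Emap_coe, map_smul, map_sum]
    simp only [LinearMap.map_smul]

variable (ψ qi V) in
/-- `Emap` as a linear map -/
def Elin : (kˣ → V) →ₗ[R] (OnePoint k → V) where
  toFun := Emap ψ qi
  map_add' φ φ' := by
    funext P
    induction P using OnePoint.rec with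
    | infty => rw [Pi.add_apply, Emap_infty, Emap_infty, Emap_infty, add_zero]
    | coe x =>
      rw [Pi.add_apply, Emap_coe, Emap_coe, Emap_coe, ← smul_add, ← Finset.sum_add_distrib]
      simp only [Pi.add_apply, smul_add]
  map_smul' c φ := by
    funext P
    induction P using OnePoint.rec with
    | infty => rw [RingHom.id_apply, Pi.smul_apply, Emap_infty, Emap_infty, smul_zero]
    | coe x =>
      rw [RingHom.id_apply, Pi.smul_apply, Emap_coe, Emap_coe, smul_smul, mul_comm c qi,
        ← smul_smul, Finset.smul_sum, Finset.smul_sum, Finset.smul_sum]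
      refine Finset.sum_congr rfl fun t _ => ?_
      rw [Pi.smul_apply, smul_smul (ψ _) c, mul_comm (ψ _) c, ← smul_smul c]

theorem Elin_apply (φ : kˣ → V) : Elin ψ qi V φ = Emap ψ qi φ := rfl

end

variable {ι κ : Type*} [Fintype ι] [DecidableEq ι] [Fintype κ] [DecidableEq κ] (h : Option κ ≃ ι)
  {k : ι → Type*} [∀ i, Field (k i)]
  [∀ i, Fintype (k i)] [∀ i, DecidableEq (k i)] {Z Z' : Type*} [CommRing Z] [Fintype Z]
  [DecidableEq Z] [CommRing Z'] [Fintype Z'] [DecidableEq Z'] (E : Z ≃+* ((i : ι) → k i))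
  (E' : Z' ≃+* ((j : κ) → k (h (some j)))) {d : ℤ} [∀ i, Inert (k i) d] {R : Type*} [CommRing R]
  (D : (i : ι) → LData (k i) d R)

/-- the map `W_{q f'} → Fun(ℙ¹(F_q), W_{f'})` -/
def redMap : (Zˣ → R) →ₗ[R] (OnePoint (k (h none)) → (Z'ˣ → R)) :=
  (Elin (D (h none)).ψ (D (h none)).qi (Z'ˣ → R)).comp (curryU h E E').toLinearMap

theorem redMap_apply (φ : Zˣ → R) :
    redMap h E E' D φ = Emap (D (h none)).ψ (D (h none)).qi (curryU h E E' φ) := rfl

/-- equivariance modulo constants -/
theorem redMap_kir (h2 : (2 : R) = 0) (hξ : (D (h none)).ξ = 1) (g : GL (Fin 2) Z) (φ : Zˣ → R) :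
    ∃ v : Z'ˣ → R, ∀ P : OnePoint (k (h none)), redMap h E E' D (kir E D g φ) P =
      kir E' (fun j => D (h (some j))) (Matrix.GeneralLinearGroup.map (resZ h E E') g)
        (redMap h E E' D φ ((Matrix.GeneralLinearGroup.map (pr E (h none)) g)⁻¹ • P)) + v := by
  obtain ⟨v, hv⟩ := good_all (d := (d : k (h none))) (V := (Z'ˣ → R)) h2 (D (h none)).hq
    (D (h none)).hψ (Matrix.GeneralLinearGroup.map (pr E (h none)) g)
    (fun t0 => kir E' (fun j => D (h (some j)))
          (Matrix.GeneralLinearGroup.map (resZ h E E') g) (curryU h E E' φ t0))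
  refine ⟨v, fun P => ?_⟩
  rw [redMap_apply, curryU_kir, hξ, redMap_apply, ← Emap_comp, ← hv P]
  rfl

theorem redMap_infty (φ : Zˣ → R) : redMap h E E' D φ ∞ = 0 := rfl

theorem redMap_sum (φ : Zˣ → R) : ∑ x : k (h none), redMap h E E' D φ (x : OnePoint _) = 0 :=
  sum_Emap (D (h none)).hψ _

theorem redMap_injective {φ : Zˣ → R} {v : Z'ˣ → R} (hv : ∀ P, redMap h E E' D φ P = v) :
    φ = 0 := by
  have := Emap_injective (D (h none)).hq (D (h none)).hψ hv
  exact (curryU h E E').map_eq_zero_iff.mp this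

theorem redMap_surjective (h2 : (2 : R) = 0) {f : OnePoint (k (h none)) → (Z'ˣ → R)}
    (hf : f ∞ + ∑ x : k (h none), f (x : OnePoint _) = 0) :
    ∃ φ : Zˣ → R, ∀ P, redMap h E E' D φ P = f P - f ∞ := by
  obtain ⟨φ, hφ⟩ := Emap_surjective (fun r => Inert.nonsq (d := d) r) h2 (D (h none)).hq
    (D (h none)).hψ hf
  refine ⟨(curryU h E E').symm φ, fun P => ?_⟩
  rw [redMap_apply, LinearEquiv.apply_symm_apply, hφ]

end

end Fermat.Agent.H29Z
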