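import Mathlib
import Fermat.Agent.H29W.Red3

set_option autoImplicit false
set_option linter.all false
set_option maxHeartbeats 400000

/-! The Kirillov model for a finite set of inert primes. -/

namespace Fermat.Agent.H29Z

open Fermat.Agent.H29W

open QuadraticAlgebra Finset
local notation "∞" => OnePoint.infty

noncomputable section

/-- a finite set of primes -/
class PB (B : Finset ℕ) : Prop where
  prime : ∀ q ∈ B, q.Prime

/-- `d` is not a square modulo the elements of `B` -/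
class IB (d : ℤ) (B : Finset ℕ) : Prop where
  inert : ∀ q ∈ B, ∀ r : ZMod q, r ^ 2 ≠ (d : ZMod q)

instance instFactPrime {B : Finset ℕ} [PB B] (i : B) : Fact (i : ℕ).Prime :=
  ⟨PB.prime (i : ℕ) i.2⟩

instance instInertB {d : ℤ} {B : Finset ℕ} [PB B] [IB d B] (i : B) : Inert (ZMod (i : ℕ)) d :=
  ⟨IB.inert (i : ℕ) i.2⟩

/-- the product of the elements of `B` -/
def fB (B : Finset ℕ) : ℕ := ∏ i : B, (i : ℕ)

theorem fB_eq (B : Finset ℕ) : fB B = ∏ q ∈ B, q := Finset.prod_coe_sort B (fun q => q)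

instance instNeZeroFB (B : Finset ℕ) [PB B] : NeZero (fB B) :=
  ⟨Finset.prod_ne_zero_iff.mpr fun i _ => (PB.prime (i : ℕ) i.2).ne_zero⟩

theorem coprimeB (B : Finset ℕ) [PB B] :
    Pairwise (Function.onFun Nat.Coprime fun i : B => (i : ℕ)) := by
  intro i j hij
  exact (Nat.coprime_primes (PB.prime (i : ℕ) i.2) (PB.prime (j : ℕ) j.2)).mpr
    fun h => hij (Subtype.ext h)

/-- the Chinese remainder isomorphism -/
def EB (B : Finset ℕ) [PB B] : ZMod (fB B) ≃+* ((i : B) → ZMod (i : ℕ)) :=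
  ZMod.prodEquivPi (fun i : B => (i : ℕ)) (coprimeB B)

theorem dvd_fB {B : Finset ℕ} (i : B) : (i : ℕ) ∣ fB B :=
  Finset.dvd_prod_of_mem (fun i : B => (i : ℕ)) (Finset.mem_univ i)

theorem pr_EB (B : Finset ℕ) [PB B] (i : B) : pr (EB B) i =
    ZMod.castHom (dvd_fB i) (ZMod (i : ℕ)) := Subsingleton.elim _ _

attribute [irreducible] fB EB

variable {d : ℤ} {R : Type*} [CommRing R]

/-- families of local data -/
abbrev BData (d : ℤ) (B : Finset ℕ) [PB B] [IB d B] (R : Type*) [CommRing R] :=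
  (i : B) → LData (ZMod (i : ℕ)) d R

/-- the Kirillov representation for `B` -/
def kirB {B : Finset ℕ} [PB B] [IB d B] (D : BData d B R) :
    GL (Fin 2) (ZMod (fB B)) →* Module.End R ((ZMod (fB B))ˣ → R) := kir (EB B) D

theorem kirB_apply {B : Finset ℕ} [PB B] [IB d B] (D : BData d B R)
    (g : GL (Fin 2) (ZMod (fB B))) (φ : (ZMod (fB B))ˣ → R) (s : (ZMod (fB B))ˣ) :
    kirB D g φ s = ∑ t, bigM (EB B) D g.1 s t * φ t := rfl

section insert

variable {B : Finset ℕ} {q : ℕ} (hq : q ∉ B)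

theorem fB_dvd (B : Finset ℕ) (q : ℕ) : fB B ∣ fB (insert q B) := by
  rw [fB_eq, fB_eq]
  exact Finset.prod_dvd_prod_of_subset _ _ _ (Finset.subset_insert q B)

theorem q_dvd (B : Finset ℕ) (q : ℕ) : q ∣ fB (insert q B) := by
  rw [fB_eq]
  exact Finset.dvd_prod_of_mem _ (Finset.mem_insert_self q B)

/-- projection to `ℤ/f_B` -/
def πB (B : Finset ℕ) (q : ℕ) : ZMod (fB (insert q B)) →+* ZMod (fB B) :=
  ZMod.castHom (fB_dvd B q) _

/-- projection to `ℤ/q` -/
def πq (B : Finset ℕ) (q : ℕ) : ZMod (fB (insert q B)) →+* ZMod q :=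
  ZMod.castHom (q_dvd B q) _

/-- index equivalence -/
def hIdx (hq : q ∉ B) : Option B ≃ (insert q B : Finset ℕ) :=
  (Finset.subtypeInsertEquivOption hq).symm

variable [PB B] [IB d B] [PB (insert q B)] [IB d (insert q B)] [Fact q.Prime]

/-- restriction of the data -/
def BData.res (D : BData d (insert q B) R) : BData d B R := fun j =>
  D ⟨j, Finset.mem_insert_of_mem j.2⟩

/-- the datum at `q` -/
def BData.at_q [Inert (ZMod q) d] (D : BData d (insert q B) R) : LData (ZMod q) d R :=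
  D ⟨q, Finset.mem_insert_self q B⟩

/-- `W_{q f_B} → Fun(ℙ¹(F_q), W_{f_B})` -/
def redB (D : BData d (insert q B) R) :
    ((ZMod (fB (insert q B)))ˣ → R) →ₗ[R] (OnePoint (ZMod q) → ((ZMod (fB B))ˣ → R)) :=
  redMap (hIdx hq) (EB (insert q B)) (EB B) D

theorem redB_kir [Inert (ZMod q) d] (D : BData d (insert q B) R) (h2 : (2 : R) = 0)
    (hξ : D.at_q.ξ = 1)
    (g : GL (Fin 2) (ZMod (fB (insert q B)))) (φ : (ZMod (fB (insert q B)))ˣ → R) :
    ∃ v : (ZMod (fB B))ˣ → R, ∀ P : OnePoint (ZMod q), redB hq D (kirB D g φ) P =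
      kirB D.res (Matrix.GeneralLinearGroup.map (πB B q) g)
        (redB hq D φ ((Matrix.GeneralLinearGroup.map (πq B q) g)⁻¹ • P)) + v := by
  have e1 : resZ (hIdx hq) (EB (insert q B)) (EB B) = πB B q := Subsingleton.elim _ _
  have e2 : pr (EB (insert q B)) (hIdx hq none) = πq B q := Subsingleton.elim _ _
  obtain ⟨v, hv⟩ := redMap_kir (hIdx hq) (EB (insert q B)) (EB B) D h2 hξ g φ
  refine ⟨v, fun P => ?_⟩
  have := hv P
  rw [e1, e2] at this
  exact this

theorem redB_infty (D : BData d (insert q B) R) (φ : (ZMod (fB (insert q B)))ˣ → R) :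
    redB hq D φ ∞ = 0 := rfl

theorem redB_sum (D : BData d (insert q B) R) (φ : (ZMod (fB (insert q B)))ˣ → R) :
    ∑ x : ZMod q, redB hq D φ (x : OnePoint _) = 0 :=
  redMap_sum (hIdx hq) (EB (insert q B)) (EB B) D φ

theorem redB_injective (D : BData d (insert q B) R) {φ : (ZMod (fB (insert q B)))ˣ → R}
    {v : (ZMod (fB B))ˣ → R} (hv : ∀ P, redB hq D φ P = v) : φ = 0 :=
  redMap_injective (hIdx hq) (EB (insert q B)) (EB B) D hv

theorem redB_surjective (D : BData d (insert q B) R) (h2 : (2 : R) = 0)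
    {f : OnePoint (ZMod q) → ((ZMod (fB B))ˣ → R)}
    (hf : f ∞ + ∑ x : ZMod q, f (x : OnePoint _) = 0) :
    ∃ φ : (ZMod (fB (insert q B)))ˣ → R, ∀ P, redB hq D φ P = f P - f ∞ :=
  redMap_surjective (hIdx hq) (EB (insert q B)) (EB B) D h2 hf

end insert

end

end Fermat.Agent.H29Z
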