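import Mathlib
import Fermat.Agent.H29W.BSet

set_option autoImplicit false
set_option linter.all false
set_option maxHeartbeats 400000

/-! Constructions of local data; base change. -/

namespace Fermat.Agent.H29Z

open Fermat.Agent.H29W

open QuadraticAlgebra Finset

noncomputable section

section loc

variable {k : Type*} [Field k] [Fintype k] [DecidableEq k] {d : ℤ} [Inert k d]
  {R R' : Type*} [CommRing R] [CommRing R']

/-- base change of local data -/
def LData.map (D : LData k d R) (φ : R →+* R') : LData k d R' where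
  ψ := (φ : R →* R').compAddChar D.ψ
  qi := φ D.qi
  ξ := D.ξ.ringHomComp φ
  hq := by rw [← map_natCast φ, ← map_mul, D.hq, map_one]
  hψ a ha := by
    have := congrArg φ (D.hψ a ha)
    rw [map_sum, map_zero] at this
    exact this
  h1 a ha := by
    rw [MulChar.ringHomComp_apply, D.h1 a ha, map_one]
  h2 := by
    have := congrArg φ D.h2
    rw [map_sum, map_zero] at this
    exact this

theorem LData.map_ψ (D : LData k d R) (φ : R →+* R') (x : k) : (D.map φ).ψ x = φ (D.ψ x) := rfl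
theorem LData.map_qi (D : LData k d R) (φ : R →+* R') : (D.map φ).qi = φ D.qi := rfl
theorem LData.map_ξ (D : LData k d R) (φ : R →+* R') (x : QI k d) :
    (D.map φ).ξ x = φ (D.ξ x) := rfl

theorem Mf_map (D : LData k d R) (φ : R →+* R') (a b c e s t : k) :
    Mf (D.map φ).ψ (D.map φ).qi (D.map φ).ξ a b c e s t = φ (Mf D.ψ D.qi D.ξ a b c e s t) := by
  by_cases hc : c = 0
  · subst hc
    rw [Mf_zero, Mf_zero]
    split_ifs
    · rfl
    · rw [map_zero]
  · rw [Mf_ne _ _ hc, Mf_ne _ _ hc, map_mul φ, map_mul φ, map_neg φ, map_sum φ]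
    simp only [map_mul φ]
    rfl

/-- the kernels only depend on `ξ` up to inversion -/
theorem Mf_inv (ψ : AddChar k R) (qi : R) (ξ ξ' : MulChar (QI k d) R)
    (h1 : ∀ a : k, a ≠ 0 → ξ (algebraMap k _ a) = 1) (hinv : ∀ x ≠ 0, ξ' x = ξ x⁻¹)
    (a b c e s t : k) (h : s * t * (a * e - b * c) ≠ 0) :
    Mf ψ qi ξ' a b c e s t = Mf ψ qi ξ a b c e s t := by
  by_cases hc : c = 0
  · subst hc
    rw [Mf_zero, Mf_zero]
  · rw [Mf_ne _ _ hc, Mf_ne _ _ hc]
    congr 1
    refine Finset.sum_bij' (fun z _ => star z) (fun z _ => star z) ?_ ?_ ?_ ?_ ?_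
    · intro z hz; rw [mem_fib] at hz ⊢; rw [QuadraticAlgebra.norm_star, hz]
    · intro z hz; rw [mem_fib] at hz ⊢; rw [QuadraticAlgebra.norm_star, hz]
    · intro z _; exact star_star z
    · intro z _; exact star_star z
    · intro z hz
      rw [mem_fib] at hz
      have hz0 : z ≠ 0 := by
        rintro rfl; rw [QuadraticAlgebra.norm_zero] at hz; exact h hz.symm
      rw [trace_star, hinv z hz0, xi_star h1 hz0]

/-- a character nontrivial on squares is nontrivial on norm one elements -/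
theorem exists_norm_one (ξ : MulChar (QI k d) R)
    (h1 : ∀ a : k, a ≠ 0 → ξ (algebraMap k _ a) = 1) {x : QI k d} (hx : x ≠ 0)
    (h : ξ x ^ 2 ≠ 1) : ∃ u : QI k d, u.norm = 1 ∧ ξ u ≠ 1 := by
  refine ⟨x * (star x)⁻¹, ?_, fun hu => h ?_⟩
  · rw [map_mul, H29W.norm_inv', QuadraticAlgebra.norm_star, mul_inv_cancel₀]
    exact fun h => hx (norm_eq_zero_iff_eq_zero.mp h)
  · have h2 : ξ (star x) = ξ x⁻¹ := xi_star h1 hx
    have h3 : ξ (star x)⁻¹ = ξ x := by
      have h4 := xi_inv_mul (ξ := ξ) (star_ne_zero' hx)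
      have h5 := xi_inv_mul (ξ := ξ) hx
      rw [h2] at h4
      calc ξ (star x)⁻¹ = ξ (star x)⁻¹ * (ξ x⁻¹ * ξ x) := by rw [h5, mul_one]
        _ = (ξ (star x)⁻¹ * ξ x⁻¹) * ξ x := by ring
        _ = ξ x := by rw [h4, one_mul]
    rw [map_mul, h3] at hu
    rw [sq]; exact hu

theorem sum_norm_one [IsDomain R] (ξ : MulChar (QI k d) R) {u : QI k d} (hu : u.norm = 1)
    (h : ξ u ≠ 1) : ∑ v ∈ fib (d : k) (1 : k), ξ v = 0 := by
  have hu0 : u ≠ 0 := by
    rintro rfl; rw [QuadraticAlgebra.norm_zero] at hu; exact zero_ne_one hu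
  have h1 : ∑ v ∈ fib (d : k) (1 : k), ξ v = ξ u * ∑ v ∈ fib (d : k) (1 : k), ξ v := by
    rw [Finset.mul_sum]
    refine Finset.sum_bij' (fun v _ => u⁻¹ * v) (fun v _ => u * v) ?_ ?_ ?_ ?_ ?_
    · intro v hv; rw [mem_fib] at hv ⊢; rw [map_mul, H29W.norm_inv', hu, hv, inv_one, one_mul]
    · intro v hv; rw [mem_fib] at hv ⊢; rw [map_mul, hu, hv, one_mul]
    · intro v _; rw [← mul_assoc, mul_inv_cancel₀ hu0, one_mul]
    · intro v _; rw [← mul_assoc, inv_mul_cancel₀ hu0, one_mul]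
    · intro v _; rw [← map_mul, ← mul_assoc, mul_inv_cancel₀ hu0, one_mul]
  have h2 : (1 - ξ u) * ∑ v ∈ fib (d : k) (1 : k), ξ v = 0 := by linear_combination h1
  exact (mul_eq_zero.mp h2).resolve_left (sub_ne_zero.mpr (Ne.symm h))

theorem sum_psi_eq_zero [IsDomain R] (ψ : AddChar k R) {x : k} (hx : ψ x ≠ 1) {a : k}
    (ha : a ≠ 0) : ∑ y, ψ (a * y) = 0 := by
  have h1 : ∑ y, ψ (a * y) = ψ x * ∑ y, ψ (a * y) := by
    rw [Finset.mul_sum, ← Equiv.sum_comp (Equiv.addRight (a⁻¹ * x)) (fun y => ψ (a * y))]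
    refine Finset.sum_congr rfl fun y _ => ?_
    rw [Equiv.coe_addRight, mul_add, ← mul_assoc, mul_inv_cancel₀ ha, one_mul,
      AddChar.map_add_eq_mul, mul_comm]
  have h2 : (1 - ψ x) * ∑ y, ψ (a * y) = 0 := by linear_combination h1
  exact (mul_eq_zero.mp h2).resolve_left (sub_ne_zero.mpr (Ne.symm hx))

/-- local data over a domain -/
def LData.mk' [IsDomain R] (ψ : AddChar k R) (hψ : ∃ x, ψ x ≠ 1) (qi : R)
    (hq : (Fintype.card k : R) * qi = 1) (ξ : MulChar (QI k d) R)
    (h1 : ∀ a : k, a ≠ 0 → ξ (algebraMap k _ a) = 1) (h : ∃ x ≠ 0, ξ x ^ 2 ≠ 1) :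
    LData k d R where
  ψ := ψ
  qi := qi
  ξ := ξ
  hq := hq
  hψ a ha := sum_psi_eq_zero ψ hψ.choose_spec ha
  h1 := h1
  h2 := by
    obtain ⟨x, hx, hx2⟩ := h
    obtain ⟨u, hu, hu1⟩ := exists_norm_one ξ h1 hx hx2
    exact sum_norm_one ξ hu hu1

/-- in characteristic two the character of order four becomes trivial -/
theorem LData.map_ξ_eq_one (D : LData k d R) (φ : R →+* R') [IsReduced R'] (h2 : (2 : R') = 0)
    (h4 : ∀ x ≠ 0, D.ξ x ^ 4 = 1) : (D.map φ).ξ = 1 := by
  ext x
  have hx : (x : QI k d) ≠ 0 := x.isUnit.ne_zero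
  rw [MulChar.one_apply x.isUnit, LData.map_ξ]
  have h3 : φ (D.ξ x) ^ 4 = 1 := by rw [← map_pow, h4 _ hx, map_one]
  have h5 : (φ (D.ξ x) - 1) ^ 4 = 0 := by
    linear_combination h3 + (-2 * φ (D.ξ x) ^ 3 + 3 * φ (D.ξ x) ^ 2 - 2 * φ (D.ξ x) + 1) * h2
  have h6 := pow_eq_zero_iff (four_ne_zero) |>.mp h5
  exact sub_eq_zero.mp h6

end loc

section val

variable {K : Type*} [Field K] (A : ValuationSubring K)

theorem root_of_unity_mem {ζ : K} {n : ℕ} (hn : n ≠ 0) (h : ζ ^ n = 1) : ζ ∈ A := by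
  rw [← ValuationSubring.valuation_le_one_iff]
  have h1 : A.valuation ζ ^ n = 1 := by rw [← map_pow, h, map_one]
  exact ((pow_eq_one_iff.mp h1).resolve_right hn).le

theorem inv_odd_mem (h2 : (2 : K) ∈ A.nonunits) {q : ℕ} (hq : Odd q) : ((q : K))⁻¹ ∈ A := by
  obtain ⟨m, rfl⟩ := hq
  have h3 : (2 * m : K) ∈ A.nonunits := by
    rw [ValuationSubring.mem_nonunits_iff] at h2 ⊢
    rw [map_mul]
    exact mul_lt_one_of_lt_of_le h2 ((ValuationSubring.valuation_le_one_iff A _).mpr
      (natCast_mem A m))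
  rw [ValuationSubring.mem_nonunits_iff] at h3
  rw [← ValuationSubring.valuation_le_one_iff, map_inv₀]
  have h4 : A.valuation (((2 * m + 1 : ℕ) : K)) = 1 := by
    push_cast
    rw [Valuation.map_add_eq_of_lt_right, map_one]
    rw [map_one]; exact h3
  rw [h4, inv_one]

variable {k : Type*} [Field k] [Fintype k] [DecidableEq k] {d : ℤ} [Inert k d]

/-- local data over the valuation ring -/
def LData.toA (D : LData k d K) (h2 : (2 : K) ∈ A.nonunits) (hodd : Odd (Fintype.card k)) :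
    LData k d A where
  ψ :=
    { toFun := fun x => ⟨D.ψ x, root_of_unity_mem A (n := Fintype.card k) (Fintype.card_ne_zero)
        (by
          rw [← AddChar.map_nsmul_eq_pow]
          have : Fintype.card k • x = 0 := by
            rw [nsmul_eq_mul, FiniteField.cast_card_eq_zero, zero_mul]
          rw [this, AddChar.map_zero_eq_one])⟩
      map_zero_eq_one' := Subtype.ext (AddChar.map_zero_eq_one _)
      map_add_eq_mul' := fun x y => Subtype.ext (AddChar.map_add_eq_mul _ _ _) }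
  qi := ⟨D.qi, by
    have h3 : D.qi = ((Fintype.card k : K))⁻¹ := by
      exact eq_inv_of_mul_eq_one_right D.hq
    rw [h3]; exact inv_odd_mem A h2 hodd⟩
  ξ :=
    { toFun := fun x => ⟨D.ξ x, by
        by_cases hx : x = 0
        · rw [hx, MulChar.map_zero]; exact zero_mem A
        · refine root_of_unity_mem A (n := Fintype.card (QI k d)ˣ) (Fintype.card_ne_zero) ?_
          have h3 : Units.mk0 x hx ^ Fintype.card (QI k d)ˣ = 1 := pow_card_eq_one
          have h4 := congrArg (fun u : (QI k d)ˣ => D.ξ (u : QI k d)) h3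
          simp only [Units.val_pow_eq_pow_val, Units.val_mk0, Units.val_one, map_one, map_pow] at h4
          exact h4⟩
      map_one' := Subtype.ext (map_one _)
      map_mul' := fun x y => Subtype.ext (map_mul _ _ _)
      map_nonunit' := fun x hx => Subtype.ext (MulChar.map_nonunit _ hx) }
  hq := Subtype.ext (by
    have := D.hq
    push_cast
    exact this)
  hψ a ha := Subtype.ext (by
    have := D.hψ a ha
    push_cast
    exact this)
  h1 a ha := Subtype.ext (D.h1 a ha)
  h2 := Subtype.ext (by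
    have := D.h2
    push_cast
    exact this)

theorem LData.ext' {R : Type*} [CommRing R] {D D' : LData k d R} (h1 : D.ψ = D'.ψ)
    (h2 : D.qi = D'.qi) (h3 : D.ξ = D'.ξ) : D = D' := by
  cases D; cases D'; congr

theorem LData.toA_map (D : LData k d K) (h2 : (2 : K) ∈ A.nonunits)
    (hodd : Odd (Fintype.card k)) : (D.toA A h2 hodd).map A.subtype = D := by
  apply LData.ext'
  · ext x; rfl
  · rfl
  · ext x; rfl

theorem LData.toA_ξ (D : LData k d K) (h2 : (2 : K) ∈ A.nonunits)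
    (hodd : Odd (Fintype.card k)) (x : QI k d) :
    (((D.toA A h2 hodd).ξ x : A) : K) = D.ξ x := rfl

end val

section glob

variable {ι : Type*} [Fintype ι] [DecidableEq ι] {k : ι → Type*} [∀ i, Field (k i)]
  [∀ i, Fintype (k i)] [∀ i, DecidableEq (k i)] {Z : Type*} [CommRing Z] [Fintype Z]
  [DecidableEq Z] (E : Z ≃+* ((i : ι) → k i)) {d : ℤ}
  [∀ i, Inert (k i) d] {R R' : Type*} [CommRing R] [CommRing R']

theorem bigM_map (D : (i : ι) → LData (k i) d R) (φ : R →+* R') (g : Matrix (Fin 2) (Fin 2) Z)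
    (s t : Zˣ) : bigM E (fun i => (D i).map φ) g s t = φ (bigM E D g s t) := by
  rw [bigM, bigM, map_prod]
  refine Finset.prod_congr rfl fun i _ => ?_
  rw [Mf_map]

/-- base change for the Kirillov model -/
theorem kir_map (D : (i : ι) → LData (k i) d R) (φ : R →+* R') (g : GL (Fin 2) Z)
    (v : Zˣ → R) : kir E (fun i => (D i).map φ) g (fun s => φ (v s)) =
      fun s => φ (kir E D g v s) := by
  funext s
  rw [kir_apply, kir_apply, map_sum]
  refine Finset.sum_congr rfl fun t _ => ?_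
  rw [bigM_map, map_mul]

end glob

end

end Fermat.Agent.H29Z
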