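import Mathlib
import Fermat.Agent.H29W.Kir

set_option autoImplicit false
set_option linter.all false

/-! The Weil representation and the Kirillov model over a product of fields. -/

namespace Fermat.Agent.H29W

open QuadraticAlgebra Finset

noncomputable section

/-- functoriality of `QuadraticAlgebra` -/
def qmap {R S : Type*} [CommRing R] [CommRing S] (φ : R →+* S) (d : R) :
    QuadraticAlgebra R d 0 →+* QuadraticAlgebra S (φ d) 0 where
  toFun x := ⟨φ x.re, φ x.im⟩
  map_one' := by ext <;> simp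
  map_zero' := by ext <;> simp
  map_add' x y := by ext <;> simp
  map_mul' x y := by ext <;> simp

theorem qmap_norm {R S : Type*} [CommRing R] [CommRing S] (φ : R →+* S) (d : R)
    (x : QuadraticAlgebra R d 0) : (qmap φ d x).norm = φ x.norm := by
  simp [norm_def, qmap]

theorem qmap_trace {R S : Type*} [CommRing R] [CommRing S] (φ : R →+* S) (d : R)
    (x : QuadraticAlgebra R d 0) : trace (qmap φ d x) = φ (trace x) := by
  simp only [trace_def, zero_mul, add_zero, map_mul, map_ofNat]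
  rfl

theorem addChar_sum {A M ι : Type*} [AddCommMonoid A] [CommMonoid M] (ψ : AddChar A M)
    (s : Finset ι) (f : ι → A) : ψ (∑ i ∈ s, f i) = ∏ i ∈ s, ψ (f i) := by
  classical
  induction s using Finset.induction_on with
  | empty => simp
  | insert a s ha ih => rw [Finset.sum_insert ha, Finset.prod_insert ha, AddChar.map_add_eq_mul, ih]

theorem qmap_star {R S : Type*} [CommRing R] [CommRing S] (φ : R →+* S) (d : R)
    (x : QuadraticAlgebra R d 0) : qmap φ d (star x) = star (qmap φ d x) := by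
  ext <;> simp [qmap]

variable {ι : Type*} [Fintype ι] [DecidableEq ι] {k : ι → Type*} [∀ i, Field (k i)]
  [∀ i, Fintype (k i)] [∀ i, DecidableEq (k i)] {Z : Type*} [CommRing Z] [Fintype Z]
  [DecidableEq Z] (E : Z ≃+* ((i : ι) → k i)) (d : Z)

/-- projections -/
def pr (i : ι) : Z →+* k i := (Pi.evalRingHom k i).comp (E : Z →+* ((i : ι) → k i))

theorem pr_apply (i : ι) (z : Z) : pr E i z = E z i := rfl

/-- inclusions -/
def inj (i : ι) : k i →+ Z :=
  (E.symm : ((i : ι) → k i) ≃+* Z).toAddEquiv.toAddMonoidHom.comp (AddMonoidHom.single k i)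

theorem inj_apply (i : ι) (u : k i) : inj E i u = E.symm (Pi.single i u) := rfl

theorem sum_inj_pr (z : Z) : ∑ i, inj E i (pr E i z) = z := by
  apply E.injective
  rw [map_sum]
  ext j
  rw [Finset.sum_apply]
  simp_rw [inj_apply, RingEquiv.apply_symm_apply, pr_apply]
  rw [Finset.sum_eq_single j]
  · rw [Pi.single_eq_same]
  · intro i _ hij; rw [Pi.single_eq_of_ne (Ne.symm hij)]
  · intro h; exact absurd (Finset.mem_univ _) h

/-- the decomposition of the quadratic algebra -/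
def eqA : QuadraticAlgebra Z d 0 ≃ ((i : ι) → QuadraticAlgebra (k i) (pr E i d) 0) where
  toFun x i := qmap (pr E i) d x
  invFun y := ⟨E.symm fun i => (y i).re, E.symm fun i => (y i).im⟩
  left_inv x := by
    ext
    · change E.symm (fun i => E x.re i) = _
      exact E.symm_apply_apply _
    · change E.symm (fun i => E x.im i) = _
      exact E.symm_apply_apply _
  right_inv y := by
    funext i
    ext
    · change E (E.symm _) i = _
      rw [RingEquiv.apply_symm_apply]
    · change E (E.symm _) i = _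
      rw [RingEquiv.apply_symm_apply]

theorem eqA_apply (x : QuadraticAlgebra Z d 0) (i : ι) : eqA E d x i = qmap (pr E i) d x := rfl

/-- the decomposition of the units -/
def eqU : Zˣ ≃ ((i : ι) → (k i)ˣ) :=
  (Units.mapEquiv E.toMulEquiv).toEquiv.trans MulEquiv.piUnits.toEquiv

theorem eqU_apply (t : Zˣ) (i : ι) : ((eqU E t i : (k i)ˣ) : k i) = pr E i t := rfl

theorem sum_eqA {R : Type*} [CommRing R] (F : (i : ι) → QuadraticAlgebra (k i) (pr E i d) 0 → R) :
    ∑ y : QuadraticAlgebra Z d 0, ∏ i, F i (qmap (pr E i) d y) = ∏ i, ∑ y, F i y := by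
  rw [Finset.prod_univ_sum, Fintype.piFinset_univ, ← Equiv.sum_comp (eqA E d)]
  rfl

theorem sum_eqU {R : Type*} [CommRing R] (F : (i : ι) → k i → R) :
    ∑ t : Zˣ, ∏ i, F i (pr E i t) = ∏ i, ∑ t : (k i)ˣ, F i t := by
  rw [Finset.prod_univ_sum, Fintype.piFinset_univ, ← Equiv.sum_comp (eqU E)]
  rfl

theorem pr_unit_ne (i : ι) (t : Zˣ) : pr E i t ≠ 0 := (t.isUnit.map (pr E i)).ne_zero

variable [∀ i, Fact (∀ r : k i, r ^ 2 ≠ pr E i d + 0 * r)]

/-- the data defining the representation -/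
structure WData (R : Type*) [CommRing R] where
  Ψ : AddChar Z R
  qi : ι → R
  ξ : (i : ι) → MulChar (QuadraticAlgebra (k i) (pr E i d) 0) R
  hq : ∀ i, (Fintype.card (k i) : R) * qi i = 1
  hψ : ∀ i, ∀ a ≠ 0, ∑ x, Ψ (inj E i (a * x)) = 0
  h1 : ∀ i, ∀ a : k i, a ≠ 0 → ξ i (algebraMap (k i) _ a) = 1
  h2 : ∀ i, ∑ u ∈ fib (pr E i d) (1 : k i), ξ i u = 0

namespace WData

variable {E d} {R : Type*} [CommRing R] (D : WData E d R)

/-- local additive characters -/
def ψ (i : ι) : AddChar (k i) R := D.Ψ.compAddMonoidHom (inj E i)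

theorem ψ_apply (i : ι) (x : k i) : D.ψ i x = D.Ψ (inj E i x) := rfl

theorem prod_ψ (z : Z) : ∏ i, D.ψ i (pr E i z) = D.Ψ z := by
  conv_rhs => rw [← sum_inj_pr E z]
  rw [addChar_sum]
  rfl

/-- the kernels of the Weil representation of `SL₂` -/
def K (g : Matrix (Fin 2) (Fin 2) Z) :
    Matrix (QuadraticAlgebra Z d 0) (QuadraticAlgebra Z d 0) R := fun x y =>
  ∏ i, Kf (D.ψ i) (D.qi i) (pr E i (g 0 0)) (pr E i (g 0 1)) (pr E i (g 1 0)) (pr E i (g 1 1)) 1
    (qmap (pr E i) d x) (qmap (pr E i) d y)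

/-- the matrices of the Kirillov model -/
def M (g : Matrix (Fin 2) (Fin 2) Z) : Matrix Zˣ Zˣ R := fun s t =>
  ∏ i, Mf (D.ψ i) (D.qi i) (D.ξ i) (pr E i (g 0 0)) (pr E i (g 0 1)) (pr E i (g 1 0))
    (pr E i (g 1 1)) (pr E i s) (pr E i t)

/-- from the Kirillov model to the Weil representation -/
def kap : Matrix (QuadraticAlgebra Z d 0) Zˣ R := fun x s =>
  ∏ i, Kap (D.ξ i) (qmap (pr E i) d x) (pr E i s)

theorem pr_det (g : Matrix (Fin 2) (Fin 2) Z) (i : ι) : pr E i (g 0 0) * pr E i (g 1 1) -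
    pr E i (g 0 1) * pr E i (g 1 0) = pr E i g.det := by
  rw [Matrix.det_fin_two, map_sub, map_mul, map_mul]

theorem K_mul {g g' : Matrix (Fin 2) (Fin 2) Z} (hg : g.det = 1) (hg' : g'.det = 1) :
    D.K g * D.K g' = D.K (g * g') := by
  ext x z
  rw [Matrix.mul_apply]
  simp only [K]
  simp_rw [← Finset.prod_mul_distrib]
  rw [sum_eqA E d (fun i y => Kf (D.ψ i) (D.qi i) (pr E i (g 0 0)) (pr E i (g 0 1))
    (pr E i (g 1 0)) (pr E i (g 1 1)) 1 (qmap (pr E i) d x) y *
    Kf (D.ψ i) (D.qi i) (pr E i (g' 0 0)) (pr E i (g' 0 1))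
    (pr E i (g' 1 0)) (pr E i (g' 1 1)) 1 y (qmap (pr E i) d z))]
  refine Finset.prod_congr rfl fun i _ => ?_
  rw [Kf_mul (D.hq i) (D.hψ i) (by rw [pr_det, hg, map_one, map_one])
    (by rw [pr_det, hg, map_one]; exact one_ne_zero) (by rw [pr_det, hg', map_one, map_one])
    (by rw [pr_det, hg', map_one]; exact one_ne_zero), mul_one]
  simp only [Matrix.mul_apply, Fin.sum_univ_two, map_add, map_mul]

theorem K_one : D.K 1 = 1 := by
  ext x y
  rw [Matrix.one_apply]
  simp only [K]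
  by_cases h : x = y
  · subst h
    rw [if_pos rfl]
    refine Finset.prod_eq_one fun i _ => ?_
    simp [Kf]
  · rw [if_neg h]
    have h1 : ∃ i, qmap (pr E i) d x ≠ qmap (pr E i) d y := by
      by_contra hcon
      push Not at hcon
      exact h ((eqA E d).injective (funext hcon))
    obtain ⟨i, hi⟩ := h1
    refine Finset.prod_eq_zero (Finset.mem_univ i) ?_
    simp [Kf]
    intro h; exact absurd h.symm hi

/-- the Weil representation of `SL₂` -/
def rho : Matrix.SpecialLinearGroup (Fin 2) Z →*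
    Matrix (QuadraticAlgebra Z d 0) (QuadraticAlgebra Z d 0) R where
  toFun g := D.K g.1
  map_one' := D.K_one
  map_mul' g g' := (D.K_mul g.2 g'.2).symm

/-- explicit formula, `c` unit -/
theorem K_apply_of_isUnit {g : Matrix (Fin 2) (Fin 2) Z} {c' : Z} (hc : c' * g 1 0 = 1)
    (x y : QuadraticAlgebra Z d 0) :
    D.K g x y = (∏ i, (-D.qi i)) * D.Ψ (c' * (g 0 0 * x.norm - trace (x * star y) +
      g 1 1 * y.norm)) := by
  rw [K, ← D.prod_ψ, ← Finset.prod_mul_distrib]
  refine Finset.prod_congr rfl fun i _ => ?_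
  have h1 : pr E i c' * pr E i (g 1 0) = 1 := by rw [← map_mul, hc, map_one]
  have h2 : pr E i (g 1 0) ≠ 0 := right_ne_zero_of_mul_eq_one h1
  rw [Kf_ne _ _ h2, ← eq_inv_of_mul_eq_one_left h1, one_mul, qmap_norm, qmap_norm, ← qmap_star,
    ← map_mul (qmap (pr E i) d), qmap_trace, map_mul (pr E i), map_add (pr E i), map_sub (pr E i),
    map_mul (pr E i), map_mul (pr E i)]

/-- explicit formula, upper triangular -/
theorem K_apply_of_zero {g : Matrix (Fin 2) (Fin 2) Z} {e' : Z} (hc : g 1 0 = 0)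
    (he : e' * g 1 1 = 1) (x y : QuadraticAlgebra Z d 0) :
    D.K g x y = if y = e' • x then D.Ψ (g 0 1 * e' * x.norm) else 0 := by
  have h1 : ∀ i, pr E i e' * pr E i (g 1 1) = 1 := by
    intro i; rw [← map_mul, he, map_one]
  have h2 : ∀ i, (pr E i (g 1 1))⁻¹ = pr E i e' := fun i =>
    (eq_inv_of_mul_eq_one_left (h1 i)).symm
  have h3 : ∀ i, qmap (pr E i) d (e' • x) = pr E i e' • qmap (pr E i) d x := by
    intro i; ext <;> simp [qmap]
  simp only [K, hc, map_zero, Kf_zero, one_mul, h2, div_eq_mul_inv, qmap_norm]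
  by_cases h : y = e' • x
  · subst h
    rw [if_pos rfl, ← D.prod_ψ]
    refine Finset.prod_congr rfl fun i _ => ?_
    rw [if_pos (h3 i), map_mul (pr E i), map_mul (pr E i)]
  · rw [if_neg h]
    have h4 : ∃ i, qmap (pr E i) d y ≠ qmap (pr E i) d (e' • x) := by
      by_contra hcon
      push Not at hcon
      exact h ((eqA E d).injective (funext hcon))
    obtain ⟨i, hi⟩ := h4
    refine Finset.prod_eq_zero (Finset.mem_univ i) ?_
    rw [if_neg]
    intro h5; exact hi (h5.trans (h3 i).symm)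

theorem M_mul {g g' : Matrix (Fin 2) (Fin 2) Z} (hg : IsUnit g.det) (hg' : IsUnit g'.det) :
    D.M g * D.M g' = D.M (g * g') := by
  ext s r
  rw [Matrix.mul_apply]
  simp only [M]
  simp_rw [← Finset.prod_mul_distrib]
  rw [sum_eqU E (fun i t => Mf (D.ψ i) (D.qi i) (D.ξ i) (pr E i (g 0 0)) (pr E i (g 0 1))
    (pr E i (g 1 0)) (pr E i (g 1 1)) (pr E i s) t *
    Mf (D.ψ i) (D.qi i) (D.ξ i) (pr E i (g' 0 0)) (pr E i (g' 0 1))
    (pr E i (g' 1 0)) (pr E i (g' 1 1)) t (pr E i r))]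
  refine Finset.prod_congr rfl fun i _ => ?_
  rw [Mf_mul (D.hq i) (D.hψ i) (D.h1 i) (D.h2 i) (by rw [pr_det]; exact (hg.map (pr E i)).ne_zero)
    (by rw [pr_det]; exact (hg'.map (pr E i)).ne_zero) (pr_unit_ne E i s) (pr_unit_ne E i r)]
  simp only [Matrix.mul_apply, Fin.sum_univ_two, map_add, map_mul]

/-- upper triangular matrices in the Kirillov model -/
theorem M_apply_of_zero {g : Matrix (Fin 2) (Fin 2) Z} {e' : Z} (hc : g 1 0 = 0)
    (he : e' * g 1 1 = 1) (s t : Zˣ) :
    D.M g s t = if (t : Z) = g 0 0 * e' * s then D.Ψ (g 0 1 * e' * s) else 0 := by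
  have h1 : ∀ i, pr E i e' * pr E i (g 1 1) = 1 := by
    intro i; rw [← map_mul, he, map_one]
  have h2 : ∀ i, (pr E i (g 1 1))⁻¹ = pr E i e' := fun i =>
    (eq_inv_of_mul_eq_one_left (h1 i)).symm
  simp only [M, hc, map_zero, Mf_zero, h2, div_eq_mul_inv]
  by_cases h : (t : Z) = g 0 0 * e' * s
  · rw [if_pos h, ← D.prod_ψ]
    refine Finset.prod_congr rfl fun i _ => ?_
    rw [if_pos (by rw [h, map_mul, map_mul]), map_mul (pr E i), map_mul (pr E i)]
  · rw [if_neg h]
    have h4 : ∃ i, pr E i (t : Z) ≠ pr E i (g 0 0 * e' * s) := by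
      by_contra hcon
      push Not at hcon
      exact h (E.injective (funext hcon))
    obtain ⟨i, hi⟩ := h4
    refine Finset.prod_eq_zero (Finset.mem_univ i) ?_
    rw [if_neg]
    intro h5; exact hi (by rw [h5, map_mul, map_mul])

theorem M_one : D.M 1 = 1 := by
  ext s t
  have h0 : (1 : Matrix (Fin 2) (Fin 2) Z) 1 0 = 0 := by simp
  have h1 : (1 : Z) * (1 : Matrix (Fin 2) (Fin 2) Z) 1 1 = 1 := by simp
  have h2 : (1 : Matrix (Fin 2) (Fin 2) Z) 0 0 = 1 := by simp
  have h3 : (1 : Matrix (Fin 2) (Fin 2) Z) 0 1 = 0 := by simp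
  rw [D.M_apply_of_zero h0 h1, h2, h3]
  rw [mul_one, one_mul, zero_mul, zero_mul, AddChar.map_zero_eq_one]
  by_cases h : s = t
  · subst h; rw [if_pos rfl, Matrix.one_apply_eq]
  · rw [Matrix.one_apply_ne h, if_neg]
    intro h'
    exact h (Units.ext h').symm

/-- the Kirillov model as a homomorphism to matrices -/
def kir : GL (Fin 2) Z →* Matrix Zˣ Zˣ R where
  toFun g := D.M g.1
  map_one' := D.M_one
  map_mul' g g' := (D.M_mul ((Matrix.isUnit_iff_isUnit_det _).mp g.isUnit)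
    ((Matrix.isUnit_iff_isUnit_det _).mp g'.isUnit)).symm

theorem kir_apply (g : GL (Fin 2) Z) : D.kir g = D.M g.1 := rfl

/-- `κ` intertwines -/
theorem K_kap {g : Matrix (Fin 2) (Fin 2) Z} (hg : g.det = 1) :
    D.K g * D.kap = D.kap * D.M g := by
  ext x t
  rw [Matrix.mul_apply, Matrix.mul_apply]
  simp only [K, M, kap]
  simp_rw [← Finset.prod_mul_distrib]
  rw [sum_eqU E (fun i s => Kap (D.ξ i) (qmap (pr E i) d x) s *
    Mf (D.ψ i) (D.qi i) (D.ξ i) (pr E i (g 0 0)) (pr E i (g 0 1))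
    (pr E i (g 1 0)) (pr E i (g 1 1)) s (pr E i t)),
    sum_eqA E d (fun i y => Kf (D.ψ i) (D.qi i) (pr E i (g 0 0)) (pr E i (g 0 1))
    (pr E i (g 1 0)) (pr E i (g 1 1)) 1 (qmap (pr E i) d x) y *
    Kap (D.ξ i) y (pr E i t))]
  refine Finset.prod_congr rfl fun i _ => ?_
  have h := Kf_Kap (ψ := D.ψ i) (qi := D.qi i) (D.h1 i) (D.h2 i) (β := 1)
    (a := pr E i (g 0 0)) (b := pr E i (g 0 1)) (c := pr E i (g 1 0)) (e := pr E i (g 1 1))
    (by rw [pr_det, hg, map_one, map_one])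
    (by rw [pr_det, hg, map_one]; exact one_ne_zero) (qmap (pr E i) d x) (eqU E t i)
  rw [map_one, one_mul] at h
  exact h

end WData

end

end Fermat.Agent.H29W
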