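import Mathlib
import Fermat.Agent.H29W.DataMk
import Fermat.Agent.H29W.Global

set_option autoImplicit false
set_option linter.all false
set_option maxHeartbeats 400000

/-! Comparison of the two forms of the Kirillov model. -/

namespace Fermat.Agent.H29Z

open QuadraticAlgebra Finset

noncomputable section

section cast

variable {k : Type*} [Field k] [Fintype k] [DecidableEq k] {R : Type*} [CommRing R]

/-- transport of a character along an equality of parameters -/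
def castChar {d1 d2 : k} (h : d1 = d2) (ξ : MulChar (QuadraticAlgebra k d1 0) R) :
    MulChar (QuadraticAlgebra k d2 0) R := h ▸ ξ

theorem castChar_apply {d1 d2 : k} (h : d1 = d2) (ξ : MulChar (QuadraticAlgebra k d1 0) R)
    (x : QuadraticAlgebra k d2 0) : castChar h ξ x = ξ ⟨x.re, x.im⟩ := by
  subst h; rfl

theorem castChar_inv {d1 d2 : k} (h : d1 = d2) [Fact (∀ r : k, r ^ 2 ≠ d1 + 0 * r)]
    [Fact (∀ r : k, r ^ 2 ≠ d2 + 0 * r)] (ξ : MulChar (QuadraticAlgebra k d1 0) R)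
    (x : QuadraticAlgebra k d2 0) : castChar h ξ x⁻¹ =
      ξ (⟨x.re, x.im⟩ : QuadraticAlgebra k d1 0)⁻¹ := by
  subst h; rfl

theorem Mf_cast {d1 d2 : k} (h : d1 = d2) [i1 : Fact (∀ r : k, r ^ 2 ≠ d1 + 0 * r)]
    [i2 : Fact (∀ r : k, r ^ 2 ≠ d2 + 0 * r)]
    (ψ : AddChar k R) (qi : R) (ξ : MulChar (QuadraticAlgebra k d1 0) R) (a b c e s t : k) :
    H29W.Mf ψ qi (castChar h ξ) a b c e s t = H29W.Mf ψ qi ξ a b c e s t := by
  subst h; rfl

theorem sum_castChar {d1 d2 : k} (h : d1 = d2) (ξ : MulChar (QuadraticAlgebra k d1 0) R) (t : k) :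
    ∑ u ∈ H29W.fib d2 t, castChar h ξ u = ∑ u ∈ H29W.fib d1 t, ξ u := by
  subst h; rfl

theorem castChar_algebraMap {d1 d2 : k} (h : d1 = d2) (ξ : MulChar (QuadraticAlgebra k d1 0) R)
    (a : k) : castChar h ξ (algebraMap k _ a) = ξ (algebraMap k _ a) := by
  subst h; rfl

end cast

variable {ι : Type*} [Fintype ι] [DecidableEq ι] {k : ι → Type*} [∀ i, Field (k i)]
  [∀ i, Fintype (k i)] [∀ i, DecidableEq (k i)] {Z : Type*} [CommRing Z] [Fintype Z]
  [DecidableEq Z] (E : Z ≃+* ((i : ι) → k i)) {d : ℤ} [∀ i, Inert (k i) d]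
  {R : Type*} [CommRing R]

theorem factPr (i : ι) : ∀ r : k i, r ^ 2 ≠ H29W.pr E i (d : Z) + 0 * r := by
  intro r h
  apply Inert.nonsq (d := d) r
  rw [h, map_intCast]
  ring

instance instFactPr (i : ι) : Fact (∀ r : k i, r ^ 2 ≠ H29W.pr E i (d : Z) + 0 * r) :=
  ⟨factPr E i⟩

theorem bigΨ_inj (D : (i : ι) → LData (k i) d R) (i : ι) (x : k i) :
    bigΨ E D (H29W.inj E i x) = (D i).ψ x := by
  rw [bigΨ_apply, Finset.prod_eq_single i]
  · congr 1
    exact pr_inj_same E i x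
  · intro j _ hj
    have : pr E j (H29W.inj E i x) = 0 := pr_inj_ne E hj x
    rw [this, AddChar.map_zero_eq_one]
  · intro h; exact absurd (Finset.mem_univ _) h

/-- the data in the old form -/
def toW (D : (i : ι) → LData (k i) d R) : H29W.WData E (d : Z) R where
  Ψ := bigΨ E D
  qi i := (D i).qi
  ξ i := castChar (map_intCast (H29W.pr E i) d).symm (D i).ξ
  hq i := (D i).hq
  hψ i a ha := by
    simp_rw [bigΨ_inj]
    exact (D i).hψ a ha
  h1 i a ha := by
    rw [castChar_algebraMap]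
    exact (D i).h1 a ha
  h2 i := by
    rw [sum_castChar]
    exact (D i).h2

theorem toW_Ψ (D : (i : ι) → LData (k i) d R) : (toW E D).Ψ = bigΨ E D := rfl

theorem toW_M (D : (i : ι) → LData (k i) d R) (g : Matrix (Fin 2) (Fin 2) Z) :
    (toW E D).M g = bigM E D g := by
  ext s t
  rw [H29W.WData.M, bigM]
  refine Finset.prod_congr rfl fun i _ => ?_
  have e1 : (toW E D).ψ i = (D i).ψ := by
    ext x
    rw [H29W.WData.ψ_apply, toW_Ψ, bigΨ_inj]
  rw [e1]
  exact Mf_cast _ _ _ _ _ _ _ _ _ _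

/-- a family of local data with the same matrices -/
theorem bigM_inv (D D' : (i : ι) → LData (k i) d R) (hψ : ∀ i, (D' i).ψ = (D i).ψ)
    (hq : ∀ i, (D' i).qi = (D i).qi)
    (hξ : ∀ i, (D' i).ξ = (D i).ξ ∨ ∀ x ≠ 0, (D' i).ξ x = (D i).ξ x⁻¹)
    {g : Matrix (Fin 2) (Fin 2) Z} (hg : IsUnit g.det) : bigM E D' g = bigM E D g := by
  ext s t
  rw [bigM, bigM]
  refine Finset.prod_congr rfl fun i _ => ?_
  rw [hψ, hq]
  rcases hξ i with h | h
  · rw [h]
  · refine Mf_inv _ _ _ _ (D i).h1 h _ _ _ _ _ _ ?_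
    rw [pr_det]
    exact mul_ne_zero (mul_ne_zero (pr_unit_ne E i s) (pr_unit_ne E i t))
      (hg.map (pr E i)).ne_zero

theorem kir_inv (D D' : (i : ι) → LData (k i) d R) (hψ : ∀ i, (D' i).ψ = (D i).ψ)
    (hq : ∀ i, (D' i).qi = (D i).qi)
    (hξ : ∀ i, (D' i).ξ = (D i).ξ ∨ ∀ x ≠ 0, (D' i).ξ x = (D i).ξ x⁻¹) : kir E D' = kir E D := by
  ext1 g
  refine LinearMap.ext fun φ => ?_
  funext s
  rw [kir_apply, kir_apply, bigM_inv E D D' hψ hq hξ
    ((Matrix.isUnit_iff_isUnit_det _).mp g.isUnit)]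

theorem kir_neg_one (D : (i : ι) → LData (k i) d R) : kir E D (-1) = 1 := by
  refine LinearMap.ext fun φ => ?_
  funext s
  have h10 : (((-1 : GL (Fin 2) Z) : GL (Fin 2) Z).1 : Matrix (Fin 2) (Fin 2) Z) 1 0 = 0 := by
    simp
  have h11 : (-1 : Z) * (((-1 : GL (Fin 2) Z) : GL (Fin 2) Z).1 : Matrix (Fin 2) (Fin 2) Z) 1 1 = 1 := by
    simp
  have h00 : (((-1 : GL (Fin 2) Z) : GL (Fin 2) Z).1 : Matrix (Fin 2) (Fin 2) Z) 0 0 = -1 := by
    simp
  have h01 : (((-1 : GL (Fin 2) Z) : GL (Fin 2) Z).1 : Matrix (Fin 2) (Fin 2) Z) 0 1 = 0 := by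
    simp
  rw [kir_apply, Finset.sum_eq_single s]
  · rw [bigM_of_zero E D h10 h11, h00, h01, if_pos (by ring), zero_mul, zero_mul,
      AddChar.map_zero_eq_one, one_mul]
    rfl
  · intro t _ hts
    rw [bigM_of_zero E D h10 h11, h00, if_neg, zero_mul]
    intro h
    exact hts (Units.ext (by rw [h]; ring))
  · intro h; exact absurd (Finset.mem_univ _) h

/-- upper triangular matrices -/
theorem kir_of_zero (D : (i : ι) → LData (k i) d R) (g : GL (Fin 2) Z) {e' : Z}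
    (hc : g.1 1 0 = 0) (he : e' * g.1 1 1 = 1) (φ : Zˣ → R) (s t : Zˣ)
    (ht : (t : Z) = g.1 0 0 * e' * s) :
    kir E D g φ s = bigΨ E D (g.1 0 1 * e' * s) * φ t := by
  rw [kir_apply, Finset.sum_eq_single t]
  · rw [bigM_of_zero E D hc he, if_pos ht]
  · intro r _ hr
    rw [bigM_of_zero E D hc he, if_neg, zero_mul]
    intro h
    exact hr (Units.ext (by rw [h, ht]))
  · intro h; exact absurd (Finset.mem_univ _) h

end

end Fermat.Agent.H29Z
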