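import Mathlib
import Fermat.Agent.H29W.BSet
import Fermat.Agent.H28S.Filt

set_option autoImplicit false
set_option linter.all false
set_option maxHeartbeats 400000

/-! `Th_q(W_{f_B}) ≅ W_{q f_B}` in characteristic two. -/

namespace Fermat.Agent.H29Z

open Fermat.Agent.H29W Fermat.Agent.H24ES Fermat.Agent.H28S

open QuadraticAlgebra Finset
local notation "∞" => OnePoint.infty

noncomputable section

variable {d : ℤ} {R : Type*} [CommRing R] {B : Finset ℕ} {q : ℕ} [Fact q.Prime] (hq : q ∉ B)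
  [PB B] [IB d B] [PB (insert q B)] [IB d (insert q B)] 

theorem sum_PL {V : Type*} [AddCommMonoid V] (f : PL q → V) :
    ∑ P, f P = f ∞ + ∑ x : ZMod q, f (x : OnePoint (ZMod q)) := by
  exact Fintype.sum_option (M := V) (α := ZMod q) f

/-- the map to functions of sum zero -/
def redK (D : BData d (insert q B) R) :
    ((ZMod (fB (insert q B)))ˣ → R) →ₗ[R] sumKer (R := R) q ((ZMod (fB B))ˣ → R) :=
  (redB hq D).codRestrict _ (fun φ => by
    rw [mem_sumKer, sum_PL, redB_infty, redB_sum, zero_add])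

theorem coe_redK (D : BData d (insert q B) R) (φ : (ZMod (fB (insert q B)))ˣ → R) :
    (redK hq D φ : PL q → ((ZMod (fB B))ˣ → R)) = redB hq D φ := rfl

/-- the map to `Th_q` -/
def redTh (D : BData d (insert q B) R) :
    ((ZMod (fB (insert q B)))ˣ → R) →ₗ[R] Th (R := R) q ((ZMod (fB B))ˣ → R) :=
  (thQ (R := R) q).comp (redK hq D)

theorem redTh_apply (D : BData d (insert q B) R) (φ : (ZMod (fB (insert q B)))ˣ → R) :
    redTh hq D φ = Submodule.Quotient.mk (redK hq D φ) := rfl

theorem redTh_injective (D : BData d (insert q B) R) : Function.Injective (redTh hq D) := by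
  rw [injective_iff_map_eq_zero]
  intro φ hφ
  rw [redTh_apply, Submodule.Quotient.mk_eq_zero, Submodule.mem_comap] at hφ
  obtain ⟨v, hv⟩ := hφ
  exact redB_injective hq D (v := v) (fun P => (congrFun hv P).symm)

theorem redTh_surjective (D : BData d (insert q B) R) (h2 : (2 : R) = 0) :
    Function.Surjective (redTh hq D) := by
  intro x
  obtain ⟨⟨f, hf⟩, rfl⟩ := Submodule.Quotient.mk_surjective _ x
  rw [mem_sumKer, sum_PL] at hf
  obtain ⟨φ, hφ⟩ := redB_surjective hq D h2 hf
  refine ⟨φ, ?_⟩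
  rw [redTh_apply, Submodule.Quotient.eq, Submodule.mem_comap]
  refine ⟨- f ∞, ?_⟩
  funext P
  change - f ∞ = redB hq D φ P - f P
  rw [hφ]
  abel

/-- **the isomorphism `W_{q f_B} ≅ Th_q(W_{f_B})`** -/
def thIso (D : BData d (insert q B) R) (h2 : (2 : R) = 0) :
    ((ZMod (fB (insert q B)))ˣ → R) ≃ₗ[R] Th (R := R) q ((ZMod (fB B))ˣ → R) :=
  LinearEquiv.ofBijective (redTh hq D) ⟨redTh_injective hq D, redTh_surjective hq D h2⟩

theorem thIso_apply (D : BData d (insert q B) R) (h2 : (2 : R) = 0)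
    (φ : (ZMod (fB (insert q B)))ˣ → R) : thIso hq D h2 φ = redTh hq D φ := rfl

theorem isUnit_insert_iff {B : Finset ℕ} {q : ℕ} (hq : q ∉ B) [PB B] [PB (insert q B)]
    [Fact q.Prime] (n : ℤ) :
    IsUnit ((n : ℤ) : ZMod (fB (insert q B))) ↔
      IsUnit ((n : ℤ) : ZMod q) ∧ IsUnit ((n : ℤ) : ZMod (fB B)) := by
  have e : fB (insert q B) = q * fB B := by
    rw [fB_eq, fB_eq, Finset.prod_insert hq]
  have key : ∀ m : ℕ, IsUnit ((n : ℤ) : ZMod m) ↔ IsCoprime n (m : ℤ) := by
    intro m
    rw [ZMod.coe_int_isUnit_iff_isCoprime, isCoprime_comm]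
  rw [key, key, key, e, Nat.cast_mul, IsCoprime.mul_right_iff]

theorem ofGL_of_not {R V : Type*} [CommRing R] [AddCommGroup V] [Module R V] {f : ℕ}
    (r : GL (Fin 2) (ZMod f) →* Module.End R V) {A : M2} (h : ¬ IsUnit (redM f A).det) :
    ofGL f r A = 0 := dif_neg h

/-- **the isomorphism is equivariant** -/
theorem thIso_ofGL [Inert (ZMod q) d] (D : BData d (insert q B) R) (h2 : (2 : R) = 0)
    (hξ : D.at_q.ξ = 1) (A : M2) (φ : (ZMod (fB (insert q B)))ˣ → R) :
    thIso hq D h2 (ofGL (fB (insert q B)) (kirB D) A φ) =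
      thRep q (ofGL (fB B) (kirB D.res)) A (thIso hq D h2 φ) := by
  rw [thIso_apply, thIso_apply, redTh_apply, redTh_apply, thRep_mk]
  by_cases h : IsUnit (redM (fB (insert q B)) A).det
  · have h' := h
    rw [det_redM, isUnit_insert_iff hq, ← det_redM, ← det_redM] at h'
    obtain ⟨hAq, hAf⟩ := h'
    obtain ⟨v, hv⟩ := redB_kir hq D h2 hξ (toGLf (fB (insert q B)) A h) φ
    have e1 : Matrix.GeneralLinearGroup.map (πB B q) (toGLf (fB (insert q B)) A h) =
        toGLf (fB B) A hAf := by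
      apply Units.ext
      ext i j
      change πB B q ((A i j : ℤ) : ZMod _) = ((A i j : ℤ) : ZMod _)
      exact map_intCast _ _
    have e2 : Matrix.GeneralLinearGroup.map (πq B q) (toGLf (fB (insert q B)) A h) =
        toGLf q A hAq := by
      apply Units.ext
      ext i j
      change πq B q ((A i j : ℤ) : ZMod _) = ((A i j : ℤ) : ZMod _)
      exact map_intCast _ _
    rw [e1, e2] at hv
    rw [Submodule.Quotient.eq, Submodule.mem_comap]
    refine ⟨v, ?_⟩
    funext P
    change v = redB hq D (ofGL (fB (insert q B)) (kirB D) A φ) P -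
      funRep q (ofGL (fB B) (kirB D.res)) A (redB hq D φ) P
    rw [ofGL_of_isUnit _ h, hv, funRep_apply _ hAq, ofGL_of_isUnit _ hAf]
    abel
  · have h' := h
    rw [det_redM, isUnit_insert_iff hq, ← det_redM, ← det_redM] at h'
    rw [ofGL_of_not _ h, LinearMap.zero_apply, map_zero]
    symm
    rw [Submodule.Quotient.mk_zero, Submodule.Quotient.mk_eq_zero, Submodule.mem_comap]
    refine ⟨0, ?_⟩
    funext P
    change 0 = funRep q (ofGL (fB B) (kirB D.res)) A (redB hq D φ) P
    by_cases hAq : IsUnit (redM q A).det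
    · have hAf : ¬ IsUnit (redM (fB B) A).det := fun h3 => h' ⟨hAq, h3⟩
      rw [funRep_apply _ hAq, ofGL_of_not _ hAf]
      rfl
    · rw [funRep_of_not _ hAq]
      rfl

end

end Fermat.Agent.H29Z
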