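import Mathlib
import Fermat.Agent.H29W.Bridge
import Fermat.Agent.H29W.ThIso

set_option autoImplicit false
set_option linter.all false
set_option maxHeartbeats 400000

/-! Kirillov models for sets of primes: base change, reduction, empty set, constructors. -/

namespace Fermat.Agent.H29Z

open Fermat.Agent.H24ES

open QuadraticAlgebra Finset

noncomputable section

variable {d : ℤ} {B : Finset ℕ} [PB B] [IB d B]

section basic

variable {R R' : Type*} [CommRing R] [CommRing R']

theorem kirB_neg_one (D : BData d B R) : kirB D (-1) = 1 := kir_neg_one _ _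

theorem ofGL_kirB_neg_one (D : BData d B R) : ofGL (fB B) (kirB D) (-1) = 1 :=
  ofGL_neg_one _ (kirB_neg_one D)

/-- base change -/
def BData.map (D : BData d B R) (φ : R →+* R') : BData d B R' := fun i => (D i).map φ

theorem kirB_map (D : BData d B R) (φ : R →+* R') (g : GL (Fin 2) (ZMod (fB B)))
    (v : (ZMod (fB B))ˣ → R) : kirB (D.map φ) g (fun s => φ (v s)) =
      fun s => φ (kirB D g v s) := kir_map _ _ _ _ _

theorem ofGL_kirB_map (D : BData d B R) (φ : R →+* R') (A : M2)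
    (v : (ZMod (fB B))ˣ → R) : ofGL (fB B) (kirB (D.map φ)) A (fun s => φ (v s)) =
      fun s => φ (ofGL (fB B) (kirB D) A v s) := by
  by_cases h : IsUnit (redM (fB B) A).det
  · rw [ofGL_of_isUnit _ h, ofGL_of_isUnit _ h, kirB_map]
  · rw [ofGL_of_not _ h, ofGL_of_not _ h]
    funext s
    simp

theorem fB_empty : fB ∅ = 1 := by rw [fB_eq, Finset.prod_empty]

theorem kirB_empty [PB ∅] [IB d ∅] (D : BData d ∅ R) : kirB D = 1 := by
  haveI : Subsingleton (ZMod (fB ∅)) := by rw [fB_empty]; infer_instance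
  ext1 g
  refine LinearMap.ext fun φ => ?_
  funext s
  rw [kirB_apply, Finset.sum_eq_single s]
  · rw [bigM, Finset.univ_eq_empty, Finset.prod_empty, one_mul]
    rfl
  · intro t _ ht
    exact absurd (Units.ext (Subsingleton.elim _ _)) ht
  · intro h; exact absurd (Finset.mem_univ _) h

theorem ofGL_kirB_empty [PB ∅] [IB d ∅] (D : BData d ∅ R) : ofGL (fB ∅) (kirB D) = 1 := by
  haveI : Subsingleton (ZMod (fB ∅)) := by rw [fB_empty]; infer_instance
  ext1 A
  have h : IsUnit (redM (fB ∅) A).det := by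
    rw [Subsingleton.elim (redM (fB ∅) A).det 1]
    exact isUnit_one
  rw [ofGL_of_isUnit _ h, kirB_empty]
  rfl

/-- functions on the units of the zero ring -/
def emptyEquiv (R : Type*) [CommRing R] : ((ZMod (fB ∅))ˣ → R) ≃ₗ[R] R :=
  haveI : Subsingleton (ZMod (fB ∅)) := by rw [fB_empty]; infer_instance
  haveI : Unique (ZMod (fB ∅))ˣ :=
    { default := 1, uniq := fun a => Units.ext (Subsingleton.elim _ _) }
  LinearEquiv.funUnique (ZMod (fB ∅))ˣ R R

end basic

section val

variable {K : Type*} [Field K] (A : ValuationSubring K)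

theorem odd_card_ZMod {q : ℕ} [NeZero q] (hq : Odd q) : Odd (Fintype.card (ZMod q)) := by
  rw [ZMod.card]; exact hq

/-- the data over the valuation ring -/
def BData.toA (D : BData d B K) (h2 : (2 : K) ∈ A.nonunits) (hodd : ∀ q ∈ B, Odd q) :
    BData d B A := fun i => (D i).toA A h2 (odd_card_ZMod (hodd i i.2))

theorem BData.toA_map (D : BData d B K) (h2 : (2 : K) ∈ A.nonunits) (hodd : ∀ q ∈ B, Odd q) :
    (D.toA A h2 hodd).map A.subtype = D := by
  funext i
  exact LData.toA_map A (D i) h2 _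

/-- reduction -/
def BData.red (D : BData d B K) (h2 : (2 : K) ∈ A.nonunits) (hodd : ∀ q ∈ B, Odd q) :
    BData d B (IsLocalRing.ResidueField A) := (D.toA A h2 hodd).map (IsLocalRing.residue A)

theorem two_eq_zero_residue (h2 : (2 : K) ∈ A.nonunits) :
    (2 : IsLocalRing.ResidueField A) = 0 := by
  have h : (2 : A) ∈ IsLocalRing.maximalIdeal A := by
    rw [IsLocalRing.mem_maximalIdeal, mem_nonunits_iff]
    intro hu
    rw [ValuationSubring.mem_nonunits_iff] at h2
    have h3 := (ValuationSubring.valuation_eq_one_iff A 2).mp hu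
    exact absurd h3 h2.ne
  rw [← IsLocalRing.residue_eq_zero_iff] at h
  rw [← h, map_ofNat]

theorem BData.red_ξ (D : BData d B K) (h2 : (2 : K) ∈ A.nonunits) (hodd : ∀ q ∈ B, Odd q)
    (i : B) (h4 : ∀ x ≠ 0, (D i).ξ x ^ 4 = 1) : ((D.red A h2 hodd) i).ξ = 1 := by
  refine LData.map_ξ_eq_one _ _ (two_eq_zero_residue A h2) fun x hx => ?_
  apply Subtype.ext
  have := h4 x hx
  exact this

/-- compatibility of the representations over `K` and over `A` -/
theorem ofGL_toA (D : BData d B K) (h2 : (2 : K) ∈ A.nonunits) (hodd : ∀ q ∈ B, Odd q) (m : M2)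
    (v : (ZMod (fB B))ˣ → A) : ofGL (fB B) (kirB D) m (fun s => ((v s : A) : K)) =
      fun s => ((ofGL (fB B) (kirB (D.toA A h2 hodd)) m v s : A) : K) := by
  have h := ofGL_kirB_map (D.toA A h2 hodd) A.subtype m v
  rw [BData.toA_map] at h
  exact h

/-- compatibility of the representations over `A` and over the residue field -/
theorem ofGL_red (D : BData d B K) (h2 : (2 : K) ∈ A.nonunits) (hodd : ∀ q ∈ B, Odd q) (m : M2)
    (v : (ZMod (fB B))ˣ → A) :
    ofGL (fB B) (kirB (D.red A h2 hodd)) m (fun s => IsLocalRing.residue A (v s)) =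
      fun s => IsLocalRing.residue A (ofGL (fB B) (kirB (D.toA A h2 hodd)) m v s) :=
  ofGL_kirB_map _ _ _ _

section res

variable {q : ℕ} [PB (insert q B)] [IB d (insert q B)]

theorem BData.red_res (D : BData d (insert q B) K) (h2 : (2 : K) ∈ A.nonunits)
    (hodd : ∀ p ∈ insert q B, Odd p) :
    (D.red A h2 hodd).res = D.res.red A h2 (fun p hp => hodd p (Finset.mem_insert_of_mem hp)) :=
  rfl

end res

end val

section std

/-- local data attached to the standard additive character -/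
def stdB (ξ : (i : B) → MulChar (QI (ZMod (i : ℕ)) d) ℂ)
    (h1 : ∀ (i : B) (a : ZMod (i : ℕ)), a ≠ 0 → ξ i (algebraMap (ZMod (i : ℕ)) _ a) = 1)
    (h2 : ∀ i : B, ∃ x ≠ 0, ξ i x ^ 2 ≠ 1) : BData d B ℂ := fun i =>
  LData.mk' ((ZMod.stdAddChar (N := fB B)).compAddMonoidHom (inj (EB B) i))
    (by
      refine ⟨1, ?_⟩
      rw [AddChar.compAddMonoidHom_apply]
      intro h
      have h3 : inj (EB B) i 1 = 0 :=
        ZMod.injective_stdAddChar (by rw [h, AddChar.map_zero_eq_one])
      have h4 := pr_inj_same (EB B) i (1 : ZMod (i : ℕ))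
      rw [h3, map_zero] at h4
      exact zero_ne_one h4)
    ((i : ℂ)⁻¹)
    (by
      rw [ZMod.card]
      exact mul_inv_cancel₀ (by exact_mod_cast (PB.prime (i : ℕ) i.2).ne_zero))
    (ξ i) (h1 i) (h2 i)

variable (ξ : (i : B) → MulChar (QI (ZMod (i : ℕ)) d) ℂ)
    (h1 : ∀ (i : B) (a : ZMod (i : ℕ)), a ≠ 0 → ξ i (algebraMap (ZMod (i : ℕ)) _ a) = 1)
    (h2 : ∀ i : B, ∃ x ≠ 0, ξ i x ^ 2 ≠ 1)

theorem stdB_ξ (i : B) : (stdB ξ h1 h2 i).ξ = ξ i := rfl

theorem bigΨ_stdB (x : ZMod (fB B)) : bigΨ (EB B) (stdB ξ h1 h2) x = ZMod.stdAddChar x := by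
  conv_rhs => rw [← sum_inj_pr (EB B) x, addChar_sum]
  rw [bigΨ_apply]
  rfl

/-- changing characters to their inverses -/
theorem exists_data_inv {R : Type*} [CommRing R] (D : BData d B R)
    (ξ' : (i : B) → MulChar (QI (ZMod (i : ℕ)) d) R)
    (h : ∀ i, ξ' i = (D i).ξ ∨ ξ' i = ((D i).ξ)⁻¹) :
    ∃ D' : BData d B R, (∀ i, (D' i).ψ = (D i).ψ) ∧ (∀ i x, (D' i).ξ x⁻¹ = ξ' i x) ∧
      kirB D' = kirB D := by
  have key : ∀ i : B, ∃ L : LData (ZMod (i : ℕ)) d R, L.ψ = (D i).ψ ∧ L.qi = (D i).qi ∧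
      (∀ x, L.ξ x⁻¹ = ξ' i x) ∧ (L.ξ = (D i).ξ ∨ ∀ x ≠ 0, L.ξ x = (D i).ξ x⁻¹) := by
    intro i
    rcases h i with h | h
    · refine ⟨{ D i with
        ξ := ((D i).ξ)⁻¹
        h1 := fun a ha => by
          rw [MulChar.inv_apply', ← map_inv₀]
          exact (D i).h1 _ (inv_ne_zero ha)
        h2 := by
          simp_rw [MulChar.inv_apply']
          exact H29W.sum_fib_xi_inv (D i).h2 (D i).h1 one_ne_zero }, rfl, rfl, ?_, Or.inr ?_⟩
      · intro x
        show ((D i).ξ)⁻¹ x⁻¹ = _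
        rw [MulChar.inv_apply', inv_inv, h]
      · intro x _
        show ((D i).ξ)⁻¹ x = _
        rw [MulChar.inv_apply']
    · refine ⟨D i, rfl, rfl, ?_, Or.inl rfl⟩
      intro x
      rw [h, MulChar.inv_apply']
  choose L hL1 hL2 hL3 hL4 using key
  refine ⟨L, hL1, hL3, ?_⟩
  exact kir_inv (EB B) D L hL1 hL2 hL4

end std

end

end Fermat.Agent.H29Z
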